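import Fermat.Agent.ChebotarevError.Galois
import Fermat.Agent.DedekindPrimeIdeals.Psi

/-!
# The Chebyshev function of a set of Frobenius elements

The shift of the line with `T = exp √(log x)` bounds the first moment, and by monotonicity
`∑_{n ≤ x} Λ_C n = |C| / |G| x + O (x exp (- c √(log x)))`.
-/

set_option autoImplicit false
set_option linter.unusedSectionVars false
set_option linter.style.haveILetI false

noncomputable section

open NumberField IsDedekindDomain Module Finset
open FA.DedekindPIT (partialSum momentSum desmooth_up desmooth_down)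
open FA.ZeroFree (ell)
open scoped Real Classical

namespace FA.ChebError

variable {K L : Type*} [Field K] [NumberField K] [Field L] [NumberField L] [Algebra K L]
variable [IsGalois K L]

theorem mangoldtF_nonneg (C : Set (L ≃ₐ[K] L)) (n : ℕ) : 0 ≤ mangoldtF C n :=
  tsum_nonneg fun _ => mul_nonneg (frobShare_nonneg C _ _) (Real.log_natCast_nonneg _)

theorem mangoldtF_le (C : Set (L ≃ₐ[K] L)) (n : ℕ) :
    mangoldtF C n ≤ finrank ℚ K * ArithmeticFunction.vonMangoldt n :=
  (FA.Hecke.fiberSum_le (fun p => frobShare_nonneg C p.1 _) (fun p => frobShare_le_one C p.1 _)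
    n).trans_eq (one_mul _)

theorem ell_exp_le {u : ℝ} (hu : 1 ≤ u) : ell (Real.exp u) ≤ 6 * u := by
  rw [ell, Real.log_le_iff_le_exp (by positivity), abs_of_pos (Real.exp_pos u),
    show 6 * u = u + 5 * u by ring, Real.exp_add]
  have h5 : (101 : ℝ) ≤ Real.exp (5 * u) :=
    calc (101 : ℝ) ≤ (2.7 : ℝ) ^ 5 := by norm_num
      _ ≤ Real.exp 1 ^ 5 :=
        pow_le_pow_left₀ (by norm_num) (by linarith [Real.exp_one_gt_d9]) 5
      _ = Real.exp ((5 : ℕ) * 1) := (Real.exp_nat_mul 1 5).symm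
      _ ≤ _ := Real.exp_le_exp.2 (by norm_num; linarith)
  nlinarith [Real.one_le_exp (show 0 ≤ u by linarith)]

/-- **The first moment.** -/
theorem exists_moment_le {C : Set (L ≃ₐ[K] L)} (hC : ∀ g ∈ C, ∀ x, x * g * x⁻¹ ∈ C) :
    ∃ b B : ℝ, 0 < b ∧ b ≤ 1 / 2 ∧ 0 ≤ B ∧ ∀ x : ℝ, 3 ≤ x →
      |momentSum (mangoldtF C) x - momentSum (fun _ => share C) x| ≤
        B * x ^ 2 * Real.exp (-(b * √(Real.log x))) := by
  obtain ⟨a, B, F, ha, ha2, hB, hser, hreg⟩ := exists_region_series hC
  obtain ⟨S, hS, hshift⟩ := SiegelWalfisz.exists_norm_smoothSum_le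
  refine ⟨a / 6, 2 * S * B, by positivity, by linarith, by positivity, fun x hx => ?_⟩
  have hx0 : 0 < x := by linarith
  set u := √(Real.log x)
  have hlog : 1 ≤ Real.log x := by
    rw [Real.le_log_iff_exp_le hx0]
    linarith [Real.exp_one_lt_three]
  have hu : 1 ≤ u := Real.one_le_sqrt.2 hlog
  set T := Real.exp u
  set σ₁ := 1 - a / ell T
  have hlT : 4 ≤ ell T := ZeroFree.four_le_ell T
  have hσ₁ : 1 / 2 ≤ σ₁ ∧ σ₁ ≤ 1 := by
    have h1 : a / ell T ≤ 1 / 2 := by rw [div_le_iff₀ (by linarith)]; linarith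
    have h2 : 0 ≤ a / ell T := by positivity
    simp only [σ₁]
    constructor <;> linarith
  have h := hshift (fun n => ((mangoldtF C n - share C : ℝ) : ℂ)) F x T σ₁ B hx
    (Real.one_le_exp (by linarith)) hσ₁.1 hσ₁.2 hB
    (fun σ hσ => (hser σ (by simpa using hσ)).1) (fun s hs => (hser s hs).2) fun σ y hσy hσ2 => by
      have := hreg ((σ : ℂ) + y * Complex.I) (by
        simp only [Complex.add_im, Complex.ofReal_im, Complex.mul_im, Complex.ofReal_re, Complex.I_im,
          Complex.I_re, mul_zero, mul_one, zero_add, add_zero, Complex.add_re, Complex.mul_re,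
          sub_self]
        rcases hσy with ⟨hy, hσ⟩ | hσ
        · have hm : ell y ≤ ell T := ZeroFree.ell_mono (by rwa [abs_of_pos (Real.exp_pos u)])
          have := div_le_div_of_nonneg_left ha.le (ZeroFree.ell_pos y) hm
          simp only [σ₁] at hσ
          linarith
        · have : 0 ≤ a / ell y := div_nonneg ha.le (ZeroFree.ell_pos y).le
          linarith) (by simpa using hσ2)
      simpa [DedekindPIT.quarter] using this
  have hmom : ((momentSum (mangoldtF C) x - momentSum (fun _ => share C) x : ℝ) : ℂ) =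
      (x : ℂ) * SiegelWalfisz.smoothSum (fun n => ((mangoldtF C n - share C : ℝ) : ℂ)) x := by
    rw [SiegelWalfisz.smoothSum, Finset.mul_sum, momentSum, momentSum, ← Finset.sum_sub_distrib,
      Complex.ofReal_sum]
    refine Finset.sum_congr rfl fun n _ => ?_
    have : (x : ℂ) ≠ 0 := Complex.ofReal_ne_zero.2 hx0.ne'
    push_cast
    field_simp
  rw [← Real.norm_eq_abs, ← Complex.norm_real, hmom, norm_mul, Complex.norm_real,
    Real.norm_of_nonneg hx0.le]
  refine (mul_le_mul_of_nonneg_left h hx0.le).trans ?_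
  have e1 : x ^ (σ₁ - 1) ≤ Real.exp (-(a / 6 * u)) := by
    rw [Real.rpow_def_of_pos hx0]
    refine Real.exp_le_exp.2 ?_
    have h9 := mul_le_mul_of_nonneg_left
      (div_le_div_of_nonneg_left ha.le (ZeroFree.ell_pos T) (ell_exp_le hu))
      (show 0 ≤ Real.log x by linarith)
    have h10 : Real.log x * (a / (6 * u)) = a / 6 * u := by
      have hu0 : u ≠ 0 := by linarith
      rw [show Real.log x = u ^ 2 from (Real.sq_sqrt (by linarith)).symm]
      field_simp
    simp only [σ₁]
    linarith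
  have e2 : T ^ (-(1 / 2) : ℝ) ≤ Real.exp (-(a / 6 * u)) := by
    rw [← Real.exp_mul]
    refine Real.exp_le_exp.2 ?_
    have := mul_le_mul_of_nonneg_right (show a / 6 ≤ 1 / 2 by linarith) (show 0 ≤ u by linarith)
    linarith
  calc x * (S * B * x * (x ^ (σ₁ - 1) + T ^ (-(1 / 2) : ℝ)))
      = S * B * x ^ 2 * (x ^ (σ₁ - 1) + T ^ (-(1 / 2) : ℝ)) := by ring
    _ ≤ S * B * x ^ 2 * (2 * Real.exp (-(a / 6 * u))) :=
        mul_le_mul_of_nonneg_left (by linarith) (by positivity)
    _ = _ := by ring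

/-- **The Chebyshev function.** -/
theorem exists_psiF_error {C : Set (L ≃ₐ[K] L)} (hC : ∀ g ∈ C, ∀ x, x * g * x⁻¹ ∈ C) :
    ∃ b B : ℝ, 0 < b ∧ b ≤ 1 / 8 ∧ 0 ≤ B ∧ ∀ x : ℝ, 2 ≤ x →
      |partialSum (mangoldtF C) x - share C * x| ≤ B * (x * Real.exp (-(b * √(Real.log x)))) := by
  obtain ⟨b, B, hb, hb2, hB, hmom⟩ := exists_moment_le hC
  obtain ⟨B₀, hB₀⟩ : ∃ B₀, B₀ = finrank ℚ K * (Real.log 4 + 4) + 1 := ⟨_, rfl⟩
  have hB₀1 : 1 ≤ B₀ := hB₀ ▸ le_add_of_nonneg_left (mul_nonneg (Nat.cast_nonneg _)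
    (add_nonneg (Real.log_nonneg (by norm_num)) (by norm_num)))
  refine ⟨b / 4, 16 * B + 3 + B₀ * Real.exp 1, by positivity, by linarith, by positivity,
    fun x hx => ?_⟩
  have hx0 : 0 < x := by linarith
  have hc0 := share_nonneg C
  have hc1 := share_le_one C
  have hf : ∀ n, 1 ≤ n → 0 ≤ mangoldtF C n := fun n _ => mangoldtF_nonneg C n
  have hw0 : ∀ n : ℕ, 1 ≤ n → 0 ≤ (fun _ : ℕ => share C) n := fun _ _ => hc0
  have hw1 : ∀ n : ℕ, 1 ≤ n → (fun _ : ℕ => share C) n ≤ 1 := fun _ _ => hc1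
  obtain ⟨η, hη⟩ : ∃ η, η = Real.exp (-(b / 4 * √(Real.log x))) := ⟨_, rfl⟩
  rw [← hη]
  have hη0 : 0 < η := hη ▸ Real.exp_pos _
  have hlx : 0 ≤ Real.log x := Real.log_nonneg (by linarith)
  have hr0 := Real.sqrt_nonneg (Real.log x)
  have hη1 : η ≤ 1 := hη ▸ Real.exp_le_one_iff.2 (neg_nonpos.2 (by positivity))
  have hwx : |partialSum (fun _ => share C) x - share C * x| ≤ 1 := by
    rw [partialSum, sum_const, Nat.card_Icc, Nat.add_sub_cancel, nsmul_eq_mul, mul_comm,
      ← mul_sub, abs_mul, abs_of_nonneg hc0]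
    refine mul_le_one₀ hc1 (abs_nonneg _) (abs_le.2 ⟨?_, ?_⟩)
    · linarith [Nat.lt_floor_add_one x]
    · linarith [Nat.floor_le hx0.le]
  have hrl : b / 4 * √(Real.log x) ≤ Real.log x := by
    have h2 : (1 : ℝ) / 2 ≤ √(Real.log x) := Real.le_sqrt_of_sq_le (by
      linarith [Real.log_le_log two_pos hx, Real.log_two_gt_d9])
    calc b / 4 * √(Real.log x) ≤ √(Real.log x) * √(Real.log x) :=
          mul_le_mul_of_nonneg_right (by linarith) hr0
      _ = _ := Real.mul_self_sqrt hlx
  have hxη : 1 ≤ x * η := by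
    rw [hη, ← Real.exp_log hx0, ← Real.exp_add, Real.exp_log hx0]
    exact Real.one_le_exp (by linarith)
  rcases lt_or_ge x 6 with hx6 | hx6
  · have hsmall : 1 ≤ Real.exp 1 * η := by
      rw [hη, ← Real.exp_add]
      refine Real.one_le_exp ?_
      have h6 : √(Real.log x) ≤ 3 := by
        rw [Real.sqrt_le_left (by norm_num)]
        linarith [Real.log_le_sub_one_of_pos hx0]
      nlinarith
    have hup : partialSum (mangoldtF C) x ≤ finrank ℚ K * ((Real.log 4 + 4) * x) := by
      refine (sum_le_sum fun n _ => mangoldtF_le C n).trans ?_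
      rw [← mul_sum]
      refine mul_le_mul_of_nonneg_left (le_of_eq_of_le ?_ (Chebyshev.psi_le_const_mul_self hx0.le))
        (Nat.cast_nonneg _)
      rw [Chebyshev.psi]
      rfl
    have h0 : 0 ≤ partialSum (mangoldtF C) x := sum_nonneg fun n _ => mangoldtF_nonneg C n
    have h5 : B₀ * x ≤ B₀ * Real.exp 1 * (x * η) :=
      calc B₀ * x = B₀ * x * 1 := (mul_one _).symm
        _ ≤ B₀ * x * (Real.exp 1 * η) := mul_le_mul_of_nonneg_left hsmall (by positivity)
        _ = _ := by ring
    have h6 : finrank ℚ K * ((Real.log 4 + 4) * x) + x = B₀ * x := by rw [hB₀]; ring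
    have h7 : share C * x ≤ x := mul_le_of_le_one_left hx0.le hc1
    have h8 : 0 ≤ share C * x := by positivity
    have h9 : 0 ≤ B * (x * η) := by positivity
    have h10 : 0 ≤ finrank ℚ K * ((Real.log 4 + 4) * x) := by positivity
    rw [abs_le]
    constructor <;> linarith
  obtain ⟨h, hh⟩ : ∃ h, h = x * η / 2 := ⟨_, rfl⟩
  have hh0 : 0 < h := hh ▸ by positivity
  have hhx : h ≤ x / 2 := by rw [hh]; nlinarith
  have hgap : ∀ z, x / 2 ≤ z → z ≤ 2 * x →
      |momentSum (mangoldtF C) z - momentSum (fun _ => share C) z| ≤ 4 * B * x ^ 2 * (η * η) :=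
    fun z hz hz' => by
    refine (hmom z (by linarith)).trans ?_
    have he : Real.exp (-(b * √(Real.log z))) ≤ η * η := by
      rw [hη, ← Real.exp_add]
      refine Real.exp_le_exp.2 ?_
      have hlz : Real.log x / 4 ≤ Real.log z := by
        have h1 := Real.log_le_log (by linarith) hz
        rw [Real.log_div (by linarith) two_ne_zero] at h1
        have h2 : Real.log 4 ≤ Real.log x := Real.log_le_log (by norm_num) (by linarith)
        rw [show (4 : ℝ) = 2 ^ 2 by norm_num, Real.log_pow] at h2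
        push_cast at h2
        linarith
      have h3 : √(Real.log x) / 2 ≤ √(Real.log z) := Real.le_sqrt_of_sq_le (by
        rw [div_pow, Real.sq_sqrt hlx]
        linarith)
      have := mul_le_mul_of_nonneg_left h3 hb.le
      linarith
    calc B * z ^ 2 * Real.exp (-(b * √(Real.log z))) ≤ B * (4 * x ^ 2) * (η * η) := by
          gcongr
          nlinarith
      _ = _ := by ring
  have e : 2 * (4 * B * x ^ 2 * (η * η)) / h = 16 * B * (x * η) := by
    rw [hh]; field_simp; ring
  have hup := desmooth_up hf hw0 hw1 hx0.le hh0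
    (fun z h1 h2 => hgap z (by linarith) (by linarith))
  have hdown := desmooth_down (x := x) hf hw0 hw1 hh0 (by linarith)
    (fun z h1 h2 => hgap z (by linarith) (by linarith))
  rw [e] at hup hdown
  have h11 : 0 ≤ B₀ * Real.exp 1 * (x * η) := by positivity
  rw [abs_le] at hwx ⊢
  constructor <;> linarith

end FA.ChebError

end
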