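import Fermat.Agent.ChebotarevError.Psi
import Fermat.Agent.DedekindPrimeIdeals.Count
import Fermat.Agent.Root.SummaryNaturalChebotarev

/-!
# Counting the primes with Frobenius element in a set

Prime powers and finitely many primes cost `O (√x log x)`, and partial summation gives the number of
primes.
-/

set_option autoImplicit false
set_option linter.unusedSectionVars false
set_option linter.style.haveILetI false

noncomputable section

open NumberField IsDedekindDomain Module Finset MeasureTheory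
open FA.Hecke (primesLE mem_primesLE wSum wSum_fiberwise fiberSum theta_le_summatory summable_fiberSum)
open FA.DedekindPIT (partialSum)
open FA.NaturalChebotarev (countIn someFrobSet strictFrobSet_subset finite_someFrobSet_diff)
open FA.Chebotarev (strictFrobSet)
open FA.ArtinL (IsFrobPow primeOver under_primeOver)
open scoped Real Classical

namespace FA.ChebError

/-- Partial summation. -/
theorem sum_inv_log_eq {a : ℕ → ℝ} (h0 : a 0 = 0) (h1 : a 1 = 0) {x : ℝ} (hx : 2 ≤ x) :
    ∑ n ∈ Icc 1 ⌊x⌋₊, (Real.log n)⁻¹ * a n = partialSum a x / Real.log x +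
      ∫ t in (2 : ℝ)..x, partialSum a t / (t * Real.log t ^ 2) := by
  have hθ : ∀ t : ℝ, ∑ k ∈ Icc 0 ⌊t⌋₊, a k = partialSum a t := fun t => by
    rw [partialSum, ← sum_subset (s₁ := Icc 1 ⌊t⌋₊) (Icc_subset_Icc_left zero_le_one)
      fun k hk hk' => by
        rw [mem_Icc] at hk hk'
        rw [show k = 0 by omega, h0]]
  rw [sum_subset (s₂ := Icc 0 ⌊x⌋₊) (Icc_subset_Icc_left zero_le_one) fun k hk hk' => by
      rw [mem_Icc] at hk hk'
      rw [show k = 0 by omega, h0, mul_zero],
    sum_mul_eq_sub_integral_mul₁ a (f := fun t => (Real.log t)⁻¹) h0 h1,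
    ← intervalIntegral.integral_of_le hx, hθ]
  · have e : ∫ t in (2 : ℝ)..x, deriv (fun t => (Real.log t)⁻¹) t * ∑ k ∈ Icc 0 ⌊t⌋₊, a k =
        ∫ t in (2 : ℝ)..x, -(partialSum a t / (t * Real.log t ^ 2)) :=
      intervalIntegral.integral_congr fun t _ => by
        show deriv (fun t => (Real.log t)⁻¹) t * ∑ k ∈ Icc 0 ⌊t⌋₊, a k = _
        rw [hθ, Real.deriv_inv_log_apply]
        ring
    rw [e, intervalIntegral.integral_neg]
    ring
  · intro z ⟨_, _⟩
    have : z ≠ 0 := by linarith
    have : Real.log z ≠ 0 := by apply Real.log_ne_zero_of_pos_of_ne_one <;> linarith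
    fun_prop
  · refine ContinuousOn.integrableOn_Icc fun z ⟨_, _⟩ ↦ ContinuousWithinAt.congr ?_
      (fun _ _ ↦ Real.deriv_inv_log_apply) Real.deriv_inv_log_apply
    have : z ≠ 0 := by linarith
    have : Real.log z ^ 2 ≠ 0 := by
      refine pow_ne_zero 2 <| Real.log_ne_zero_of_pos_of_ne_one ?_ ?_ <;> linarith
    exact ContinuousAt.continuousWithinAt <| by fun_prop

theorem intervalIntegrable_partialSum (a : ℕ → ℝ) {x : ℝ} (hx : 2 ≤ x) :
    IntervalIntegrable (fun t => partialSum a t / (t * Real.log t ^ 2)) volume 2 x := by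
  rw [intervalIntegrable_iff_integrableOn_Icc_of_le hx]
  refine (integrableOn_mul_sum_Icc (c := a) (m := 1) (g := fun t => (t * Real.log t ^ 2)⁻¹)
    zero_le_two ?_).congr_fun (fun t _ => by
      show (t * Real.log t ^ 2)⁻¹ * _ = _
      rw [partialSum, div_eq_inv_mul]) measurableSet_Icc
  refine ContinuousOn.integrableOn_Icc fun t ht => ContinuousAt.continuousWithinAt ?_
  have : t ≠ 0 := by linarith [ht.1]
  have : t * Real.log t ^ 2 ≠ 0 :=
    mul_ne_zero this (pow_ne_zero 2 (Real.log_pos (by linarith [ht.1])).ne')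
  fun_prop

theorem sqrt_le_log_add {x : ℝ} (hx : 1 ≤ x) : √(Real.log x) ≤ Real.log x + 1 := by
  nlinarith [Real.sq_sqrt (Real.log_nonneg hx), Real.sqrt_nonneg (Real.log x)]

/-- From sums of `log` to counts. -/
theorem count_sub_le {a : ℕ → ℝ} (h0 : a 0 = 0) (h1 : a 1 = 0) {c b B : ℝ} (hc : |c| ≤ B)
    (hb : 0 ≤ b) (hb1 : b ≤ 1 / 4)
    (hθ : ∀ t : ℝ, 2 ≤ t → |partialSum a t - c * t| ≤ B * (t * Real.exp (-(b * √(Real.log t)))))
    {x : ℝ} (hx : 2 ≤ x) :
    |∑ n ∈ Icc 1 ⌊x⌋₊, (Real.log n)⁻¹ * a n - c * ∫ t in (2 : ℝ)..x, 1 / Real.log t| ≤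
      40 * B * (x * Real.exp (-(b / 2 * √(Real.log x)))) := by
  have hB : 0 ≤ B := (abs_nonneg c).trans hc
  have hx0 : 0 < x := by linarith
  obtain ⟨E, hE⟩ : ∃ E, E = Real.exp (-(b / 2 * √(Real.log x))) := ⟨_, rfl⟩
  rw [← hE]
  have hl2 : 0.69 < Real.log 2 := lt_trans (by norm_num) Real.log_two_gt_d9
  have hlx : Real.log 2 ≤ Real.log x := Real.log_le_log two_pos hx
  have hr := sqrt_le_log_add (show 1 ≤ x by linarith)
  have hr0 := Real.sqrt_nonneg (Real.log x)
  have hxE : 1 / 2 ≤ x * E := by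
    rw [hE, ← Real.exp_log hx0, ← Real.exp_add, Real.exp_log hx0]
    have h := Real.add_one_le_exp (Real.log x + -(b / 2 * √(Real.log x)))
    have := mul_le_mul (show b / 2 ≤ 1 / 8 by linarith) hr hr0 (by norm_num)
    linarith
  have hne : ∀ t ∈ Set.uIcc 2 x, 2 ≤ t ∧ t ≠ 0 ∧ Real.log t ≠ 0 := fun t ht => by
    rw [Set.uIcc_of_le hx] at ht
    exact ⟨ht.1, by linarith [ht.1], (Real.log_pos (by linarith [ht.1])).ne'⟩
  have hcont : ContinuousOn (fun t => Real.log t) (Set.uIcc 2 x) :=
    fun t ht => (Real.continuousAt_log (hne t ht).2.1).continuousWithinAt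
  have i1 : IntervalIntegrable (fun t => 1 / Real.log t) volume 2 x :=
    (continuousOn_const.div hcont fun t ht => (hne t ht).2.2).intervalIntegrable
  have i2 : IntervalIntegrable (fun t => t / (t * Real.log t ^ 2)) volume 2 x :=
    (continuousOn_id.div (continuousOn_id.mul (hcont.pow 2)) fun t ht =>
      mul_ne_zero (hne t ht).2.1 (pow_ne_zero 2 (hne t ht).2.2)).intervalIntegrable
  have hparts : ∫ t in (2 : ℝ)..x, 1 / Real.log t =
      x / Real.log x - 2 / Real.log 2 + ∫ t in (2 : ℝ)..x, t / (t * Real.log t ^ 2) := by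
    have hd : ∀ t ∈ Set.uIcc 2 x, HasDerivAt (fun u => u / Real.log u)
        (1 / Real.log t - t / (t * Real.log t ^ 2)) t := fun t ht => by
      obtain ⟨-, ht0, hl⟩ := hne t ht
      refine ((hasDerivAt_id' t).div (Real.hasDerivAt_log ht0) hl).congr_deriv ?_
      field_simp
    have := intervalIntegral.integral_eq_sub_of_hasDerivAt hd (i1.sub i2)
    rw [intervalIntegral.integral_sub i1 i2] at this
    linarith
  have i3 := intervalIntegrable_partialSum a hx
  have hint : |(∫ t in (2 : ℝ)..x, partialSum a t / (t * Real.log t ^ 2)) -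
      c * ∫ t in (2 : ℝ)..x, t / (t * Real.log t ^ 2)| ≤ 15 * B * (x * E) := by
    rw [← intervalIntegral.integral_const_mul, ← intervalIntegral.integral_sub i3 (i2.const_mul c),
      ← Real.norm_eq_abs]
    have hg : IntervalIntegrable (fun t : ℝ => B / Real.log 2 ^ 2 * (3 * √x * E * t ^ (-(1 / 2) : ℝ)))
        volume 2 x :=
      ((intervalIntegral.intervalIntegrable_rpow' (by norm_num)).const_mul _).const_mul _
    refine (intervalIntegral.norm_integral_le_of_norm_le hx
      (Filter.Eventually.of_forall fun t ht => ?_) hg).trans ?_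
    · have ht2 : 2 ≤ t := ht.1.le
      have ht0 : 0 < t := by linarith
      have hlt : Real.log 2 ≤ Real.log t := Real.log_le_log two_pos ht2
      have e1 : partialSum a t / (t * Real.log t ^ 2) - c * (t / (t * Real.log t ^ 2)) =
          (partialSum a t - c * t) / (t * Real.log t ^ 2) := by ring
      have e2 : Real.exp (-(b * √(Real.log t))) ≤ 3 * √x * E * t ^ (-(1 / 2) : ℝ) := by
        have h3 : Real.exp 1 ≤ 3 := Real.exp_one_lt_three.le
        refine le_trans ?_ (mul_le_mul_of_nonneg_right (mul_le_mul_of_nonneg_right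
          (mul_le_mul_of_nonneg_right h3 (Real.sqrt_nonneg x)) (hE ▸ (Real.exp_pos _).le))
          (Real.rpow_nonneg ht0.le _))
        rw [hE, Real.sqrt_eq_rpow x, Real.rpow_def_of_pos hx0, Real.rpow_def_of_pos ht0,
          ← Real.exp_add, ← Real.exp_add, ← Real.exp_add]
        refine Real.exp_le_exp.2 ?_
        have hltx : Real.log t ≤ Real.log x := Real.log_le_log ht0 ht.2
        have hst0 := Real.sqrt_nonneg (Real.log t)
        rcases le_total (Real.log x / 4) (Real.log t) with h | h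
        · have hh : √(Real.log x) / 2 ≤ √(Real.log t) := Real.le_sqrt_of_sq_le (by
            rw [div_pow, Real.sq_sqrt (by linarith)]
            linarith)
          have := mul_le_mul_of_nonneg_left hh hb
          linarith
        · have := mul_le_mul (show b / 2 ≤ 1 / 8 by linarith) hr hr0 (by norm_num)
          have := mul_nonneg hb hst0
          linarith
      have hl0 : 0 < Real.log t := Real.log_pos (by linarith)
      rw [Real.norm_eq_abs, e1, abs_div, abs_of_pos (by positivity : 0 < t * Real.log t ^ 2)]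
      calc |partialSum a t - c * t| / (t * Real.log t ^ 2)
          ≤ B * (t * Real.exp (-(b * √(Real.log t)))) / (t * Real.log t ^ 2) := by
            gcongr; exact hθ t ht2
        _ = B / Real.log t ^ 2 * Real.exp (-(b * √(Real.log t))) := by field_simp
        _ ≤ _ := mul_le_mul (by gcongr) e2 (Real.exp_pos _).le (by positivity)
    · rw [intervalIntegral.integral_const_mul, intervalIntegral.integral_const_mul,
        integral_rpow (Or.inl (by norm_num))]
      norm_num
      rw [← Real.sqrt_eq_rpow, ← Real.sqrt_eq_rpow]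
      have hss : √x * √x = x := Real.mul_self_sqrt hx0.le
      have hE0 : 0 ≤ E := hE ▸ (Real.exp_pos _).le
      have h47 : B / Real.log 2 ^ 2 ≤ B * (5 / 2) := by
        rw [div_le_iff₀ (by positivity), mul_assoc]
        exact le_mul_of_one_le_right hB (by nlinarith)
      calc B / Real.log 2 ^ 2 * (3 * √x * E * ((√x - √2) / (1 / 2)))
          = 6 * (B / Real.log 2 ^ 2) * (√x * √x * E) -
              6 * (B / Real.log 2 ^ 2 * (√x * E) * √2) := by ring
        _ ≤ 6 * (B / Real.log 2 ^ 2) * (x * E) := by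
            rw [hss]
            linarith [show 0 ≤ B / Real.log 2 ^ 2 * (√x * E) * √2 by positivity]
        _ ≤ _ := by
            have := mul_le_mul_of_nonneg_right h47 (show 0 ≤ x * E by positivity)
            linarith
  have hconst : |c * (2 / Real.log 2)| ≤ 6 * B * (x * E) := by
    rw [abs_mul, abs_of_pos (show 0 < 2 / Real.log 2 by positivity)]
    have h3 : 2 / Real.log 2 ≤ 3 := by rw [div_le_iff₀ (by linarith)]; linarith
    have h4 := mul_le_mul hc h3 (by positivity) hB
    have h5 := mul_le_mul_of_nonneg_left hxE hB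
    linarith
  have hmain : |(partialSum a x - c * x) / Real.log x| ≤ 2 * B * (x * E) := by
    rw [abs_div, abs_of_pos (by linarith : 0 < Real.log x), div_le_iff₀ (by linarith)]
    refine (hθ x hx).trans ?_
    have he : Real.exp (-(b * √(Real.log x))) ≤ E := by
      rw [hE]
      refine Real.exp_le_exp.2 ?_
      have := mul_nonneg hb hr0
      linarith
    have h1 := mul_le_mul_of_nonneg_left (mul_le_mul_of_nonneg_left he hx0.le) hB
    have h2 := mul_le_mul_of_nonneg_left (show 1 ≤ 2 * Real.log x by linarith)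
      (show 0 ≤ B * (x * E) by positivity)
    linarith
  rw [sum_inv_log_eq h0 h1 hx, hparts]
  have e : (partialSum a x - c * x) / Real.log x = partialSum a x / Real.log x - c * (x / Real.log x) := by
    ring
  rw [e] at hmain
  have hBxE : 0 ≤ B * (x * E) := by
    have hE0 : 0 ≤ E := hE ▸ (Real.exp_pos _).le
    positivity
  rw [abs_le] at hint hmain hconst ⊢
  constructor <;> linarith

variable {K L : Type*} [Field K] [NumberField K] [Field L] [NumberField L] [Algebra K L]
variable [IsGalois K L]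

/-- At almost every prime the frequency is the indicator. -/
theorem frobShare_eq_ind {C : Set (L ≃ₐ[K] L)} {v : HeightOneSpectrum (𝓞 K)}
    (hv : v ∉ someFrobSet K L C \ strictFrobSet K L C) :
    frobShare C v 1 = if v ∈ someFrobSet K L C then 1 else 0 := by
  set Q := primeOver K L v
  have hF : ∀ σ : L ≃ₐ[K] L, IsFrobPow K Q 1 σ ↔ IsArithFrobAt (𝓞 K) σ Q := fun σ => by
    refine forall_congr' fun x => ?_
    rw [pow_one]
    rfl
  rw [frobShare]
  split_ifs with hs
  · have hst : v ∈ strictFrobSet K L C := by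
      by_contra h
      exact hv ⟨hs, h⟩
    rw [Finset.filter_true_of_mem fun σ hσ => hst Q inferInstance (under_primeOver K L v) σ
      ((hF σ).1 (Finset.mem_filter.1 hσ).2), FA.ArtinL.card_isFrobPow,
      div_self (Nat.cast_ne_zero.2 Nat.card_pos.ne')]
  · rw [Finset.filter_false_of_mem fun σ hσ hσC => hs ⟨Q, inferInstance, under_primeOver K L v, σ,
      hσC, (hF σ).1 (Finset.mem_filter.1 hσ).2⟩, Finset.card_empty, Nat.cast_zero, zero_div]

/-- `∑ log N` over the primes of norm `n` in `S`. -/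
def setLog (S : Set (HeightOneSpectrum (𝓞 K))) (n : ℕ) : ℝ :=
  ∑ v ∈ (primesLE K n).filter (fun v => Ideal.absNorm v.asIdeal = n),
    if v ∈ S then Real.log (Ideal.absNorm v.asIdeal) else 0

theorem partialSum_setLog (S : Set (HeightOneSpectrum (𝓞 K))) (x : ℝ) :
    partialSum (setLog S) x =
      wSum (fun v => if v ∈ S then Real.log (Ideal.absNorm v.asIdeal) else 0) x := by
  rw [wSum_fiberwise, partialSum]
  refine sum_congr rfl fun n hn => ?_
  rw [setLog, FA.DedekindPIT.primesLE_fiber K (mem_Icc.1 hn).2]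

theorem countIn_eq_sum (S : Set (HeightOneSpectrum (𝓞 K))) (x : ℝ) :
    (countIn S x : ℝ) = ∑ n ∈ Icc 1 ⌊x⌋₊, (Real.log n)⁻¹ * setLog S n := by
  rw [← FA.NaturalChebotarev.wSum_ind, wSum_fiberwise]
  refine sum_congr rfl fun n hn => ?_
  rw [setLog, ← FA.DedekindPIT.primesLE_fiber K (mem_Icc.1 hn).2, mul_sum]
  refine sum_congr rfl fun v hv => ?_
  rw [← (Finset.mem_filter.1 hv).2]
  split_ifs with h
  · rw [inv_mul_cancel₀ (Real.log_pos (Nat.one_lt_cast.2 (FA.Ext.two_le_absNorm v))).ne']
  · rw [mul_zero]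

/-- **`Λ`-sums against sums over primes.** -/
theorem exists_psiF_sub_theta_le {C : Set (L ≃ₐ[K] L)} (hC : ∀ g ∈ C, ∀ x, x * g * x⁻¹ ∈ C) :
    ∃ D : ℝ, 0 ≤ D ∧ ∀ x : ℝ, 1 ≤ x →
      |partialSum (mangoldtF C) x - partialSum (setLog (someFrobSet K L C)) x| ≤
        D + finrank ℚ K * (2 * √x * Real.log x) := by
  set T := (finite_someFrobSet_diff C hC).toFinset
  refine ⟨∑ v ∈ T, Real.log (Ideal.absNorm v.asIdeal),
    sum_nonneg fun v _ => Real.log_natCast_nonneg _, fun x hx => ?_⟩
  rw [partialSum_setLog]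
  set w : HeightOneSpectrum (𝓞 K) × ℕ → ℝ := fun p => frobShare C p.1 (p.2 + 1)
  have hw0 : ∀ p, 0 ≤ w p := fun p => frobShare_nonneg C _ _
  have hw1 : ∀ p, w p ≤ 1 := fun p => frobShare_le_one C _ _
  set θw := wSum (fun v : HeightOneSpectrum (𝓞 K) => w (v, 0) * Real.log (Ideal.absNorm v.asIdeal)) x
  set θc := wSum (fun v : HeightOneSpectrum (𝓞 K) =>
    (1 - w (v, 0)) * Real.log (Ideal.absNorm v.asIdeal)) x
  have h1 : θw ≤ partialSum (mangoldtF C) x := theta_le_summatory hw0 hw1 x
  have h2 : θc ≤ partialSum (fiberSum fun p => 1 - w p) x :=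
    theta_le_summatory (fun p => sub_nonneg.2 (hw1 p)) (fun p => sub_le_self 1 (hw0 p)) x
  have h3 : partialSum (mangoldtF C) x + partialSum (fiberSum fun p => 1 - w p) x =
      FA.DedekindPIT.psiK K x := by
    rw [partialSum, partialSum, FA.DedekindPIT.psiK, ← sum_add_distrib]
    refine sum_congr rfl fun n _ => ?_
    rw [mangoldtF, FA.DedekindPIT.mangoldtK, fiberSum, fiberSum, fiberSum,
      ← (summable_fiberSum hw0 hw1 n).tsum_add
        (summable_fiberSum (fun p => sub_nonneg.2 (hw1 p)) (fun p => sub_le_self 1 (hw0 p)) n)]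
    refine tsum_congr fun p => ?_
    show w p.1 * _ + (1 - w p.1) * _ = 1 * _
    ring
  have h4 : θw + θc = FA.DedekindPIT.thetaK K x := by
    simp only [θw, θc, FA.DedekindPIT.thetaK, wSum, ← sum_add_distrib]
    exact sum_congr rfl fun v _ => by ring
  have h5 := FA.DedekindPIT.psiK_sub_thetaK_le K hx
  have h6 : |θw - wSum (fun v => if v ∈ someFrobSet K L C then
      Real.log (Ideal.absNorm v.asIdeal) else 0) x| ≤
        ∑ v ∈ T, Real.log (Ideal.absNorm v.asIdeal) := by
    simp only [θw, wSum, ← sum_sub_distrib]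
    refine (abs_sum_le_sum_abs _ _).trans ?_
    refine (sum_le_sum fun v _ => show _ ≤ if v ∈ T then Real.log (Ideal.absNorm v.asIdeal) else 0
      from ?_).trans ?_
    · have hl := Real.log_natCast_nonneg (Ideal.absNorm v.asIdeal)
      by_cases hv : v ∈ T
      · rw [if_pos hv, abs_le]
        have := hw0 (v, 0)
        have := hw1 (v, 0)
        split_ifs <;> constructor <;> nlinarith
      · rw [if_neg hv, show w (v, 0) = frobShare C v 1 from rfl,
          frobShare_eq_ind fun h => hv ((finite_someFrobSet_diff C hC).mem_toFinset.2 h)]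
        split_ifs <;> simp
    · rw [← sum_filter]
      exact sum_le_sum_of_subset_of_nonneg (fun v hv => (mem_filter.1 hv).2)
        fun v _ _ => Real.log_natCast_nonneg _
  rw [abs_le] at h6 ⊢
  constructor <;> linarith

theorem sqrt_mul_log_le {b : ℝ} (_hb : 0 ≤ b) (hb1 : b ≤ 1 / 8) {x : ℝ} (hx : 2 ≤ x) :
    2 * √x * Real.log x ≤ 16 * (x * Real.exp (-(b * √(Real.log x)))) := by
  have hx0 : 0 < x := by linarith
  have hl : 0 ≤ Real.log x := Real.log_nonneg (by linarith)
  have h3 : x ^ (-(1 / 4) : ℝ) * Real.exp (-(1 / 8)) ≤ Real.exp (-(b * √(Real.log x))) := by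
    rw [Real.rpow_def_of_pos hx0, ← Real.exp_add]
    refine Real.exp_le_exp.2 ?_
    have := mul_le_mul hb1 (sqrt_le_log_add (show 1 ≤ x by linarith)) (Real.sqrt_nonneg _) (by norm_num)
    linarith
  have h4 : 1 / 2 ≤ Real.exp (-(1 / 8) : ℝ) := by linarith [Real.add_one_le_exp (-(1 / 8) : ℝ)]
  calc 2 * √x * Real.log x ≤ 2 * √x * (x ^ (1 / 4 : ℝ) / (1 / 4)) :=
        mul_le_mul_of_nonneg_left (Real.log_le_rpow_div hx0.le (by norm_num)) (by positivity)
    _ = 16 * (x * (x ^ (-(1 / 4) : ℝ) * (1 / 2))) := by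
        rw [Real.sqrt_eq_rpow, ← mul_assoc x, ← Real.rpow_one_add' hx0.le (by norm_num)]
        rw [show (1 : ℝ) + -(1 / 4) = 1 / 2 + 1 / 4 by norm_num, Real.rpow_add hx0]
        ring
    _ ≤ _ := by
        gcongr
        exact (mul_le_mul_of_nonneg_left h4 (Real.rpow_nonneg hx0.le _)).trans h3

/-- **Chebotarev with the classical error term, for sums of `log N`.** -/
theorem exists_theta_error {C : Set (L ≃ₐ[K] L)} (hC : ∀ g ∈ C, ∀ x, x * g * x⁻¹ ∈ C) :
    ∃ b B : ℝ, 0 < b ∧ b ≤ 1 / 8 ∧ 0 ≤ B ∧ ∀ x : ℝ, 2 ≤ x →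
      |partialSum (setLog (someFrobSet K L C)) x - share C * x| ≤
        B * (x * Real.exp (-(b * √(Real.log x)))) := by
  obtain ⟨b, B, hb, hb8, hB, hψ⟩ := exists_psiF_error hC
  obtain ⟨D, hD, hdiff⟩ := exists_psiF_sub_theta_le hC
  refine ⟨b, B + 2 * D + 16 * finrank ℚ K, hb, hb8, by positivity, fun x hx => ?_⟩
  have h1 := hψ x hx
  have h2 := hdiff x (by linarith)
  have h3 := mul_le_mul_of_nonneg_left (sqrt_mul_log_le hb.le hb8 hx)
    (Nat.cast_nonneg (finrank ℚ K) : (0 : ℝ) ≤ _)
  have h4 : D ≤ 2 * D * (x * Real.exp (-(b * √(Real.log x)))) := by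
    have h5 : 1 / 2 ≤ x * Real.exp (-(b * √(Real.log x))) := by
      have hx0 : 0 < x := by linarith
      rw [← Real.exp_log hx0, ← Real.exp_add, Real.exp_log hx0]
      have := Real.add_one_le_exp (Real.log x + -(b * √(Real.log x)))
      have := mul_le_mul hb8 (sqrt_le_log_add (show 1 ≤ x by linarith)) (Real.sqrt_nonneg _)
        (by norm_num)
      linarith [Real.log_nonneg (show 1 ≤ x by linarith)]
    have := mul_le_mul_of_nonneg_left h5 hD
    linarith
  rw [abs_le] at h1 h2 ⊢
  constructor <;> linarith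

/-- **Chebotarev with the classical error term.** -/
theorem exists_count_error {C : Set (L ≃ₐ[K] L)} (hC : ∀ g ∈ C, ∀ x, x * g * x⁻¹ ∈ C) :
    ∃ b B : ℝ, 0 < b ∧ 0 ≤ B ∧ ∀ x : ℝ, 2 ≤ x →
      |(countIn (someFrobSet K L C) x : ℝ) - share C * ∫ t in (2 : ℝ)..x, 1 / Real.log t| ≤
        B * (x * Real.exp (-(b * √(Real.log x)))) := by
  obtain ⟨b, B, hb, hb8, hB, hθ⟩ := exists_theta_error hC
  refine ⟨b / 2, 40 * (B + 1), by positivity, by positivity, fun x hx => ?_⟩
  have h0 : ∀ k, k ≤ 1 → setLog (someFrobSet K L C) k = 0 := fun k hk =>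
    Finset.sum_eq_zero fun v hv => absurd (FA.Ext.two_le_absNorm v) (by
      rw [(Finset.mem_filter.1 hv).2]; omega)
  rw [countIn_eq_sum]
  refine count_sub_le (h0 0 zero_le_one) (h0 1 le_rfl) ?_ hb.le (by linarith)
    (fun t ht => (hθ t ht).trans (mul_le_mul_of_nonneg_right (by linarith) (by positivity))) hx
  rw [abs_of_nonneg (share_nonneg C)]
  linarith [share_le_one C]

end FA.ChebError

end
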