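import Fermat.Agent.ChebotarevError.ZeroFree
import Fermat.Agent.DedekindPrimeIdeals.ZetaBound
import Fermat.Agent.ArtinL.Brauer
import Fermat.Agent.ArtinReciprocity.HeckeComparison
import Fermat.Agent.Weight1.DensityPairs

/-!
# The series of a set of Frobenius elements

For `C` stable under conjugation `|G| 1_C` is the sum over `g ∈ C` and the characters `ψ` of `⟨g⟩`
of `ψ(g)⁻¹ Ind ψ`, and reciprocity makes the series of each term a Hecke L-series over a fixed
field. So the Dirichlet series of the frequencies of `C` among the powers of Frobenius elements,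
weighted by `log N` and less `|C| / |G|`, continues into a classical region with the bound
`O ((1 + t²) ^ (1/4))`.
-/

set_option autoImplicit false
set_option linter.unusedSectionVars false
set_option linter.style.haveILetI false

noncomputable section

open NumberField IsDedekindDomain Module Filter Topology Finset
open FA.PrimeIdeal (PowFiber LSeries_fiber)
open FA.Hecke (heckeL fiberSum IsRayChar IsNontrivial)
open FA.ArtinL (artinL artinLog term coef localMean IsFrobPow primeOver fixedEquiv)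
open FA.CharacterTheory (induced)
open FA.ZeroFree (ell)
open scoped nonZeroDivisors Classical Pointwise

namespace FA.ChebError

variable {K L : Type*} [Field K] [NumberField K] [Field L] [NumberField L] [Algebra K L]
variable [IsGalois K L]

/-- `∑ coef log N` over the powers of norm `n`. -/
def artinMangoldt (χ : (L ≃ₐ[K] L) → ℂ) (n : ℕ) : ℂ :=
  ∑' p : PowFiber K n,
    coef χ p.1.1 (p.1.2 + 1) * (Real.log (Ideal.absNorm p.1.1.asIdeal) : ℂ)

theorem hasDerivAt_artinLog (χ : (L ≃ₐ[K] L) → ℂ) {s : ℂ} (hs : 1 < s.re) :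
    LSeriesSummable (artinMangoldt χ) s ∧
      HasDerivAt (artinLog χ) (-LSeries (artinMangoldt χ) s) s := by
  set S := ∑ σ, ‖χ σ‖
  have hS : 0 ≤ S := Finset.sum_nonneg fun _ _ => norm_nonneg _
  have hlog : ∀ p : HeightOneSpectrum (𝓞 K) × ℕ,
      Real.log 2 ≤ Real.log (Ideal.absNorm p.1.asIdeal) := fun p =>
    Real.log_le_log two_pos (by exact_mod_cast FA.Ext.two_le_absNorm p.1)
  set c₁ : HeightOneSpectrum (𝓞 K) × ℕ → ℂ := fun p => coef χ p.1 (p.2 + 1) / (p.2 + 1)
  set c₂ : HeightOneSpectrum (𝓞 K) × ℕ → ℂ := fun p =>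
    coef χ p.1 (p.2 + 1) * (Real.log (Ideal.absNorm p.1.asIdeal) : ℂ)
  have hl2 : 0 < Real.log 2 := Real.log_pos one_lt_two
  have hB₁ : ∀ p, ‖c₁ p‖ ≤ S / Real.log 2 * Real.log (Ideal.absNorm p.1.asIdeal) := fun p => by
    rw [show c₁ p = _ from rfl, norm_div, ← Nat.cast_add_one, Complex.norm_natCast]
    refine ((div_le_self (norm_nonneg _) (by exact_mod_cast Nat.succ_pos p.2)).trans
      (FA.ArtinL.norm_coef_le χ _ _)).trans ?_
    rw [div_mul_eq_mul_div, le_div_iff₀ hl2]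
    exact mul_le_mul_of_nonneg_left (hlog p) hS
  have hB₂ : ∀ p, ‖c₂ p‖ ≤ S * Real.log (Ideal.absNorm p.1.asIdeal) := fun p => by
    rw [show c₂ p = _ from rfl, norm_mul, Complex.norm_real,
      Real.norm_of_nonneg (Real.log_natCast_nonneg _)]
    exact mul_le_mul_of_nonneg_right (FA.ArtinL.norm_coef_le χ _ _) (Real.log_natCast_nonneg _)
  have hS2 : 0 ≤ S / Real.log 2 := by positivity
  refine ⟨(LSeries_fiber hS hB₂ hs).1, ?_⟩
  set b : ℕ → ℂ := fun n => ∑' p : PowFiber K n, c₁ p.1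
  have heq : ∀ z : ℂ, 1 < z.re → artinLog χ z = LSeries b z := fun z hz => by
    rw [show LSeries b z = _ from (LSeries_fiber hS2 hB₁ hz).2, artinLog]
    exact tsum_congr fun p => by
      simp only [term, c₁, FA.PrimeIdeal.primePow, mul_div_right_comm]
  have hlm : LSeries.logMul b = artinMangoldt χ := by
    funext n
    simp only [LSeries.logMul, artinMangoldt, b, ← tsum_mul_left]
    refine tsum_congr fun p => ?_
    obtain ⟨⟨v, j⟩, hp⟩ := p
    simp only [c₁]
    rw [← Complex.natCast_log, ← hp, Nat.cast_pow, Real.log_pow]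
    push_cast
    field_simp
  have hab : LSeries.abscissaOfAbsConv b < s.re := by
    refine lt_of_le_of_lt (LSeries_fiber hS2 hB₁ (s := ((((1 + s.re) / 2 : ℝ)) : ℂ))
      (by rw [Complex.ofReal_re]; linarith)).1.abscissaOfAbsConv_le ?_
    rw [Complex.ofReal_re]
    exact_mod_cast (show (1 + s.re) / 2 < s.re by linarith)
  rw [← hlm]
  refine (LSeries_hasDerivAt hab).congr_of_eventuallyEq ?_
  filter_upwards [(isOpen_lt continuous_const Complex.continuous_re).mem_nhds hs] with z hz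
  exact heq z hz

/-- The term of a character of a subgroup is `-H'/H` and a pole. -/
theorem exists_induced_data (H₀ : Subgroup (L ≃ₐ[K] L)) (ψ : H₀ →* ℂˣ) :
    ∃ (a B : ℝ) (H : ℂ → ℂ), 0 < a ∧ a ≤ 1 / 2 ∧ 0 ≤ B ∧ Differentiable ℂ H ∧
      (∀ s : ℂ, 1 < s.re → LSeries (artinMangoldt (induced H₀ fun y => (ψ y : ℂ))) s =
        -(deriv H s / H s) + (if ψ = 1 then 1 else 0) * (s - 1)⁻¹) ∧
      ∀ s : ℂ, 1 - a / ell s.im ≤ s.re → s.re ≤ 2 →
        H s ≠ 0 ∧ ‖deriv H s / H s‖ ≤ B * ell s.im ^ 3 := by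
  set M := IntermediateField.fixedField H₀
  set ψ' : (L ≃ₐ[M] L) →* ℂˣ := ψ.comp (fixedEquiv H₀).toMonoidHom
  obtain ⟨𝔪, f, hf, hnt, hfL⟩ := FA.ArtinRec.exists_hecke ψ'
  have hiff : ψ' = 1 ↔ ψ = 1 := by
    refine ⟨fun h => MonoidHom.ext fun y => ?_, fun h => by simp [ψ', h]⟩
    obtain ⟨x, rfl⟩ := (fixedEquiv H₀).surjective y
    exact DFunLike.congr_fun h x
  obtain ⟨H, hH⟩ := exists_cleared hf
  obtain ⟨a, B, ha, haη, hB, hreg⟩ := exists_regular_region hf hH
  refine ⟨a, B, H, ha, haη.trans (stripEta_le _), hB, hH.diff, fun s hs => ?_, hreg⟩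
  set φ : (L ≃ₐ[K] L) → ℂ := induced H₀ fun y => (ψ y : ℂ)
  have hexp : ∀ z : ℂ, 1 < z.re → Complex.exp (artinLog φ z) = heckeL f z := fun z hz => by
    rw [← hfL z hz]
    show artinL φ z = _
    rw [show φ = _ from (FA.ArtinL.inducedFn_fixedField H₀ fun y => (ψ y : ℂ)).symm,
      FA.ArtinL.artinL_induced hz fun g x => by simp [map_mul, map_inv]]
    rfl
  have hd := (hasDerivAt_artinLog φ hs).2
  have e : deriv (heckeL f) s = -LSeries (artinMangoldt φ) s * heckeL f s := by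
    have he : heckeL f =ᶠ[𝓝 s] fun z => Complex.exp (artinLog φ z) := by
      filter_upwards [(isOpen_lt continuous_const Complex.continuous_re).mem_nhds hs] with z hz
      exact (hexp z hz).symm
    rw [he.deriv_eq, hd.cexp.deriv, hexp s hs, mul_comm]
  have h := neg_logDeriv_eq hH hs
  rw [e, neg_mul, neg_neg, mul_div_cancel_right₀ _ (hf.heckeL_ne_zero hs)] at h
  rw [h]
  by_cases hψ : ψ = 1
  · rw [if_pos hψ, if_neg (show ¬IsNontrivial f from fun hn => hnt.1 hn (hiff.2 hψ)), Nat.cast_one]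
  · rw [if_neg hψ, if_pos (hnt.2 fun h' => hψ (hiff.1 h')), Nat.cast_zero]

/-- The characters of the cyclic group of `g`. -/
abbrev CycDual (g : L ≃ₐ[K] L) : Type _ := (Subgroup.zpowers g) →* ℂˣ

instance fintypeCycDual (g : L ≃ₐ[K] L) : Fintype (CycDual g) :=
  @FA.Weight1.fintypeDual (Subgroup.zpowers g)
    (IsCyclic.commGroup (α := Subgroup.zpowers g)) _

theorem sum_cycDual (g : L ≃ₐ[K] L) (x : Subgroup.zpowers g) :
    ∑ ψ : CycDual g, ((ψ x : ℂˣ) : ℂ) =
      if x = 1 then (Nat.card (Subgroup.zpowers g) : ℂ) else 0 := by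
  let _ : CommGroup (Subgroup.zpowers g) := IsCyclic.commGroup
  rw [Nat.card_eq_fintype_card]
  convert FA.Weight1.sum_char_apply (U := Subgroup.zpowers g) x

/-- The indicator of `C`. -/
def indFn (C : Set (L ≃ₐ[K] L)) (x : L ≃ₐ[K] L) : ℂ := if x ∈ C then 1 else 0

/-- **The indicator from the cyclic subgroups.** -/
theorem indFn_eq {C : Set (L ≃ₐ[K] L)} (hC : ∀ g ∈ C, ∀ x, x * g * x⁻¹ ∈ C) :
    indFn C = ∑ p ∈ C.toFinset.sigma fun g => (univ : Finset (CycDual g)),
      ((Nat.card (L ≃ₐ[K] L) : ℂ)⁻¹ * ((p.2 ⟨p.1, Subgroup.mem_zpowers p.1⟩⁻¹ : ℂˣ) : ℂ)) •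
        induced (Subgroup.zpowers p.1) fun y => (p.2 y : ℂ) := by
  funext x
  rw [Finset.sum_apply, Finset.sum_sigma]
  simp only [Pi.smul_apply, smul_eq_mul, mul_assoc, ← Finset.mul_sum]
  have hg : ∀ g : L ≃ₐ[K] L, ∑ ψ : CycDual g,
      ((ψ ⟨g, Subgroup.mem_zpowers g⟩⁻¹ : ℂˣ) : ℂ) *
        induced (Subgroup.zpowers g) (fun y => (ψ y : ℂ)) x =
      ∑ y : L ≃ₐ[K] L, if y * x * y⁻¹ = g then (1 : ℂ) else 0 := fun g => by
    simp only [induced, Finset.mul_sum]
    rw [Finset.sum_comm]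
    refine Finset.sum_congr rfl fun y _ => ?_
    by_cases hy : y * x * y⁻¹ ∈ Subgroup.zpowers g
    · simp only [dif_pos hy]
      rw [Finset.sum_congr rfl fun ψ _ => show ((ψ ⟨g, Subgroup.mem_zpowers g⟩⁻¹ : ℂˣ) : ℂ) *
          ((Nat.card (Subgroup.zpowers g) : ℂ)⁻¹ * (ψ ⟨_, hy⟩ : ℂ)) =
          (Nat.card (Subgroup.zpowers g) : ℂ)⁻¹ *
            (ψ (⟨g, Subgroup.mem_zpowers g⟩⁻¹ * ⟨_, hy⟩) : ℂ) by
        rw [map_mul, Units.val_mul]; ring,
        ← Finset.mul_sum, sum_cycDual]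
      simp only [inv_mul_eq_one, Subtype.ext_iff, eq_comm (a := g)]
      split_ifs with h
      · rw [inv_mul_cancel₀ (Nat.cast_ne_zero.2 Nat.card_pos.ne')]
      · rw [mul_zero]
    · simp only [dif_neg hy, mul_zero, Finset.sum_const_zero]
      rw [if_neg fun h : y * x * y⁻¹ = g => hy (h ▸ Subgroup.mem_zpowers _)]
  simp only [hg]
  rw [Finset.sum_comm]
  simp only [Finset.sum_ite_eq, Set.mem_toFinset]
  have hmem : ∀ y : L ≃ₐ[K] L, y * x * y⁻¹ ∈ C ↔ x ∈ C := fun y => by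
    refine ⟨fun h => ?_, fun h => hC x h y⟩
    have := hC _ h y⁻¹
    rwa [show y⁻¹ * (y * x * y⁻¹) * y⁻¹⁻¹ = x by group] at this
  simp only [hmem, indFn]
  split_ifs with h
  · rw [Finset.sum_const, Finset.card_univ, ← Nat.card_eq_fintype_card, nsmul_eq_mul, mul_one,
      inv_mul_cancel₀ (Nat.cast_ne_zero.2 Nat.card_pos.ne')]
  · rw [Finset.sum_const_zero, mul_zero]

/-- The frequency of `C` among the `j`-th powers of Frobenius at `v`. -/
def frobShare (C : Set (L ≃ₐ[K] L)) (v : HeightOneSpectrum (𝓞 K)) (j : ℕ) : ℝ :=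
  ((univ.filter fun σ => IsFrobPow K (primeOver K L v) j σ).filter (· ∈ C)).card /
    Nat.card ((primeOver K L v).inertia (L ≃ₐ[K] L))

theorem frobShare_nonneg (C : Set (L ≃ₐ[K] L)) (v : HeightOneSpectrum (𝓞 K)) (j : ℕ) :
    0 ≤ frobShare C v j := by rw [frobShare]; positivity

theorem frobShare_le_one (C : Set (L ≃ₐ[K] L)) (v : HeightOneSpectrum (𝓞 K)) (j : ℕ) :
    frobShare C v j ≤ 1 := by
  rw [frobShare, div_le_one (Nat.cast_pos.2 Nat.card_pos), Nat.cast_le,
    ← FA.ArtinL.card_isFrobPow K (primeOver K L v) j]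
  exact Finset.card_filter_le _ _

theorem coef_indFn (C : Set (L ≃ₐ[K] L)) (v : HeightOneSpectrum (𝓞 K)) (j : ℕ) :
    coef (indFn C) v j = (frobShare C v j : ℂ) := by
  simp only [coef, localMean, indFn, frobShare, Finset.sum_boole]
  push_cast
  ring

/-- The coefficients. -/
def mangoldtF (C : Set (L ≃ₐ[K] L)) (n : ℕ) : ℝ :=
  fiberSum (K := K) (fun p => frobShare C p.1 (p.2 + 1)) n

theorem artinMangoldt_indFn (C : Set (L ≃ₐ[K] L)) (n : ℕ) :
    artinMangoldt (indFn C) n = (mangoldtF C n : ℂ) := by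
  rw [artinMangoldt, mangoldtF, fiberSum, Complex.ofReal_tsum]
  exact tsum_congr fun p => by rw [coef_indFn, Complex.ofReal_mul]

/-- `|C| / |G|`. -/
def share (C : Set (L ≃ₐ[K] L)) : ℝ := (Nat.card C : ℝ) / Nat.card (L ≃ₐ[K] L)

theorem share_nonneg (C : Set (L ≃ₐ[K] L)) : 0 ≤ share C := by rw [share]; positivity

theorem share_le_one (C : Set (L ≃ₐ[K] L)) : share C ≤ 1 := by
  rw [share, div_le_one (Nat.cast_pos.2 Nat.card_pos), Nat.cast_le]
  exact Nat.card_le_card_of_injective _ Subtype.val_injective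

/-- **The continuation with its bound.** -/
theorem exists_region_series {C : Set (L ≃ₐ[K] L)} (hC : ∀ g ∈ C, ∀ x, x * g * x⁻¹ ∈ C) :
    ∃ (a B : ℝ) (F : ℂ → ℂ), 0 < a ∧ a ≤ 1 / 2 ∧ 0 ≤ B ∧
      (∀ s : ℂ, 1 < s.re →
        LSeriesSummable (fun n => ((mangoldtF C n - share C : ℝ) : ℂ)) s ∧
        LSeries (fun n => ((mangoldtF C n - share C : ℝ) : ℂ)) s = F s) ∧
      ∀ s : ℂ, 1 - a / ell s.im ≤ s.re → s.re ≤ 2 →
        DifferentiableAt ℂ F s ∧ ‖F s‖ ≤ B * DedekindPIT.quarter s.im := by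
  set I := C.toFinset.sigma fun g => (univ : Finset (CycDual g))
  set w : (Σ g : L ≃ₐ[K] L, CycDual g) → ℂ := fun p =>
    (Nat.card (L ≃ₐ[K] L) : ℂ)⁻¹ * ((p.2 ⟨p.1, Subgroup.mem_zpowers p.1⟩⁻¹ : ℂˣ) : ℂ)
  set φ : (Σ g : L ≃ₐ[K] L, CycDual g) → (L ≃ₐ[K] L) → ℂ := fun p =>
    induced (Subgroup.zpowers p.1) fun y => (p.2 y : ℂ)
  choose a B H ha ha2 hB hHd hser hreg using fun p : (Σ g : L ≃ₐ[K] L, CycDual g) =>
    exists_induced_data (Subgroup.zpowers p.1) p.2
  obtain ⟨a₀, ha₀, ha₀', ha₀2⟩ : ∃ a₀ : ℝ, 0 < a₀ ∧ (∀ p ∈ I, a₀ ≤ a p) ∧ a₀ ≤ 1 / 2 := by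
    rcases I.eq_empty_or_nonempty with hI | hI
    · exact ⟨1 / 2, by norm_num, fun p hp => by simp [hI] at hp, le_rfl⟩
    · obtain ⟨q, hq, hmin⟩ := I.exists_min_image a hI
      exact ⟨a q, ha q, hmin, ha2 q⟩
  obtain ⟨C₀, hC₀, hz₀⟩ := DedekindPIT.norm_zeta₀_le_quarter
  obtain ⟨K₁, hK₁, hell⟩ := DedekindPIT.ell_cube_le
  set F : ℂ → ℂ := fun s =>
    ∑ p ∈ I, w p * -(deriv (H p) s / H p s) - (share C : ℂ) * riemannZeta₀ s
  refine ⟨a₀, (∑ p ∈ I, ‖w p‖ * B p) * K₁ + C₀, F, ha₀, ha₀2, ?_, fun s hs => ?_, fun s h1 h2 => ?_⟩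
  · have : 0 ≤ ∑ p ∈ I, ‖w p‖ * B p :=
      Finset.sum_nonneg fun p _ => mul_nonneg (norm_nonneg _) (hB p)
    positivity
  · -- the pole cancels
    have hres : ∑ p ∈ I, w p * (if p.2 = 1 then 1 else 0) = (share C : ℂ) := by
      have e : ∀ g : L ≃ₐ[K] L, ∑ ψ : CycDual g, w ⟨g, ψ⟩ * (if ψ = 1 then 1 else 0) =
          (Nat.card (L ≃ₐ[K] L) : ℂ)⁻¹ := fun g => by
        rw [Finset.sum_eq_single (1 : CycDual g) (fun ψ _ hne => by rw [if_neg hne, mul_zero])
          fun hn => absurd (Finset.mem_univ _) hn, if_pos rfl, mul_one]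
        simp only [w, MonoidHom.one_apply, Units.val_one, mul_one]
      rw [Finset.sum_sigma, Finset.sum_congr rfl fun g _ => e g, Finset.sum_const, nsmul_eq_mul,
        share, Nat.card_coe_set_eq, Set.ncard_eq_toFinset_card']
      push_cast
      rw [div_eq_mul_inv]
    have hlog : ∀ z : ℂ, 1 < z.re →
        artinLog (indFn C) z = ∑ p ∈ I, w p * artinLog (φ p) z := fun z hz => by
      have key : ∀ t : Finset (Σ g : L ≃ₐ[K] L, CycDual g),
          artinLog (∑ p ∈ t, w p • φ p) z = ∑ p ∈ t, w p * artinLog (φ p) z := fun t => by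
        induction t using Finset.induction_on with
        | empty =>
          simp [artinLog, term, coef, localMean]
        | insert q t hq ih =>
          rw [Finset.sum_insert hq, Finset.sum_insert hq, FA.ArtinL.artinLog_add hz,
            FA.ArtinL.artinLog_smul, ih]
      rw [← key I, indFn_eq hC]
    have hd : HasDerivAt (artinLog (indFn C))
        (∑ p ∈ I, w p * -LSeries (artinMangoldt (φ p)) s) s :=
      (HasDerivAt.fun_sum fun p _ => ((hasDerivAt_artinLog (φ p) hs).2.const_mul (w p))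
        ).congr_of_eventuallyEq (by
        filter_upwards [(isOpen_lt continuous_const Complex.continuous_re).mem_nhds hs] with z hz
        exact hlog z hz)
    obtain ⟨hsum, hd'⟩ := hasDerivAt_artinLog (indFn C) hs
    have hval := hd'.unique hd
    have e : (fun n => ((mangoldtF C n - share C : ℝ) : ℂ)) =
        artinMangoldt (indFn C) - (share C : ℂ) • (1 : ℕ → ℂ) := by
      funext n
      simp [artinMangoldt_indFn]
    have ho := LSeriesSummable_one_iff.2 hs
    rw [e]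
    refine ⟨hsum.sub (ho.smul _), ?_⟩
    rw [LSeries_sub hsum (ho.smul _), LSeries_smul, LSeries_one_eq_riemannZeta hs,
      riemannZeta_eq_inv_sub_add (fun h => by simp [h] at hs), ← neg_neg (LSeries (artinMangoldt _) s),
      hval, Finset.sum_congr rfl fun p _ => show w p * -LSeries (artinMangoldt (φ p)) s =
        -(w p * -(deriv (H p) s / H p s)) - w p * (if p.2 = 1 then 1 else 0) * (s - 1)⁻¹ by
          rw [show LSeries (artinMangoldt (φ p)) s = _ from hser p s hs]; ring,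
      Finset.sum_sub_distrib, Finset.sum_neg_distrib, ← Finset.sum_mul, hres]
    simp only [F]
    ring
  have hne : ∀ p ∈ I, H p s ≠ 0 ∧ ‖deriv (H p) s / H p s‖ ≤ B p * ell s.im ^ 3 := fun p hp =>
    hreg p s (le_trans (sub_le_sub_left (div_le_div_of_nonneg_right (ha₀' p hp)
      (FA.ZeroFree.ell_pos _).le) 1) h1) h2
  refine ⟨DifferentiableAt.sub (DifferentiableAt.fun_sum fun p hp =>
    (((((hHd p).differentiableOn (s := Set.univ)).deriv isOpen_univ).differentiableAt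
      Filter.univ_mem).div ((hHd p) s) (hne p hp).1).neg.const_mul _)
    ((differentiable_riemannZeta₀ s).const_mul _), ?_⟩
  rw [add_mul]
  refine (norm_sub_le _ _).trans (add_le_add ((norm_sum_le _ _).trans ?_) ?_)
  · rw [Finset.sum_mul, Finset.sum_mul]
    refine Finset.sum_le_sum fun p hp => ?_
    rw [norm_mul, norm_neg, mul_assoc ‖w p‖, mul_assoc ‖w p‖, mul_assoc (B p)]
    exact mul_le_mul_of_nonneg_left
      ((hne p hp).2.trans (mul_le_mul_of_nonneg_left (hell _) (hB p))) (norm_nonneg _)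
  · rw [norm_mul, Complex.norm_real, Real.norm_of_nonneg (share_nonneg C)]
    refine (mul_le_of_le_one_left (norm_nonneg _) (share_le_one C)).trans (hz₀ s (le_trans ?_ h1))
    exact sub_le_sub_left (div_le_div_of_nonneg_right (by linarith) (FA.ZeroFree.ell_pos _).le) 1

end FA.ChebError

end
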