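import Fermat.Agent.DelaValleePoussin.Landau
import Fermat.Agent.ZeroFreeRegion.LowerBound

/-!
# A logarithmic derivative in a part of a zero-free region

If an entire `H` has no zero with `re s ≥ 1 - a / ell (im s)`, is `exp (O (ell))` in a strip about
the line `1` and `exp (- O (ell / (re s - 1)))` to the right of it, then `H' / H = O (ell ^ 3)` for
`re s ≥ 1 - a / (8 ell (im s))`.
-/

set_option autoImplicit false

noncomputable section

open Complex Metric Set FA.ZeroFree
open scoped Real Classical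

namespace FA.ChebError

/-- The hypotheses. -/
structure Regular (H : ℂ → ℂ) (η a P : ℝ) : Prop where
  diff : Differentiable ℂ H
  ne_zero : ∀ z : ℂ, 1 - a / ell z.im ≤ z.re → H z ≠ 0
  upper : ∀ z : ℂ, 1 - η ≤ z.re → z.re ≤ 4 → ‖H z‖ ≤ Real.exp (P * ell z.im)
  lower : ∀ z : ℂ, 1 < z.re → z.re ≤ 3 → -Real.log ‖H z‖ ≤ P * ell z.im / (z.re - 1)

theorem Regular.norm_logDeriv_le {H : ℂ → ℂ} {η a P : ℝ} (h : Regular H η a P) (ha : 0 < a)
    (haη : a ≤ η) (ha1 : a ≤ 1) (hP : 0 ≤ P) {s : ℂ} (h1 : 1 - a / 8 / ell s.im ≤ s.re)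
    (h2 : s.re ≤ 2) :
    ‖deriv H s / H s‖ ≤ 160 * (24 * P + 1) / a ^ 2 * ell s.im ^ 3 := by
  obtain ⟨l, hl⟩ : ∃ l, l = ell s.im := ⟨_, rfl⟩
  rw [← hl] at h1 ⊢
  have hl4 : 4 ≤ l := hl ▸ four_le_ell _
  obtain ⟨δ, hδd⟩ : ∃ δ, δ = a / 8 / l := ⟨_, rfl⟩
  rw [← hδd] at h1
  have hδ : 0 < δ := by rw [hδd]; positivity
  have hδ' : δ ≤ a / 32 := by
    rw [hδd, div_div]
    exact div_le_div_of_nonneg_left ha.le (by norm_num) (by linarith)
  set σ₀ := max s.re (1 + δ)
  have hσ₀ : 1 + δ ≤ σ₀ := le_max_right _ _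
  have hσ₀2 : σ₀ ≤ 5 / 2 := max_le (by linarith) (by linarith)
  have hσ₀s : s.re ≤ σ₀ := le_max_left _ _
  have hdist : σ₀ - s.re ≤ 2 * δ := by
    rcases le_total s.re (1 + δ) with h' | h'
    · rw [show σ₀ = 1 + δ from max_eq_right h']; linarith
    · rw [show σ₀ = s.re from max_eq_left h']; linarith
  set c : ℂ := (σ₀ : ℂ) + s.im * I
  have hcre : c.re = σ₀ := by simp [c]
  have hcim : c.im = s.im := by simp [c]
  set f : ℂ → ℂ := fun w => H (c + w)
  have hf : Differentiable ℂ f := h.diff.comp (differentiable_id.const_add c)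
  have hball : ∀ w ∈ ball (0 : ℂ) (3 * δ), 1 - a / ell (c + w).im ≤ (c + w).re ∧
      1 - η ≤ (c + w).re ∧ (c + w).re ≤ 4 ∧ ell (c + w).im ≤ 2 * l := fun w hw => by
    rw [mem_ball_zero_iff] at hw
    have hr := abs_le.1 ((abs_re_le_norm w).trans hw.le)
    have hh : ell (c + w).im ≤ 5 / 4 * l := hl ▸ ell_near (by
      rw [add_im, hcim, add_sub_cancel_left]
      linarith [(abs_im_le_norm w)])
    have e : 2 * δ ≤ a / ell (c + w).im := by
      rw [le_div_iff₀ (ell_pos _)]
      calc 2 * δ * ell (c + w).im ≤ 2 * δ * (5 / 4 * l) := by gcongr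
        _ = 5 / 16 * a := by rw [hδd]; field_simp; ring
        _ ≤ a := by linarith
    rw [add_re, hcre]
    exact ⟨by linarith, by linarith, by linarith, by linarith⟩
  have hne : ∀ w ∈ ball (0 : ℂ) (3 * δ), f w ≠ 0 := fun w hw => h.ne_zero _ (hball w hw).1
  set L := 3 * P * l / δ + 1
  have hPl : 0 ≤ P * l := mul_nonneg hP (by linarith)
  have hq : P * l ≤ P * l / δ := le_div_self hPl hδ (by linarith)
  have hL : 0 < L := by simp only [L]; positivity
  have hlow : -(P * l / δ) ≤ Real.log ‖f 0‖ := by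
    have := h.lower c (by rw [hcre]; linarith) (by rw [hcre]; linarith)
    rw [hcre, hcim, ← hl] at this
    have h' : P * l / (σ₀ - 1) ≤ P * l / δ := div_le_div_of_nonneg_left hPl hδ (by linarith)
    simp only [f, add_zero]
    linarith
  have hb : ∀ w ∈ ball (0 : ℂ) (3 * δ), ‖f w‖ ≤ Real.exp L * ‖f 0‖ := fun w hw => by
    obtain ⟨-, hre, hre', hh⟩ := hball w hw
    refine (h.upper _ hre hre').trans ?_
    rw [← Real.exp_log (norm_pos_iff.2 (hne 0 (mem_ball_self (by linarith)))), ← Real.exp_add]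
    refine Real.exp_le_exp.2 ?_
    have := mul_le_mul_of_nonneg_left hh hP
    have e : 3 * P * l / δ = 3 * (P * l / δ) := by ring
    simp only [L, e]
    linarith
  obtain ⟨φ, hder, hφ⟩ := FA.DLVP.norm_log_le (by positivity : (0 : ℝ) < 3 * δ) hf.differentiableOn
    hne (Real.one_lt_exp_iff.2 hL) hb
  rw [Real.log_exp] at hφ
  set w₀ : ℂ := ((s.re - σ₀ : ℝ) : ℂ)
  have hw₀ : ‖w₀‖ ≤ 2 * δ := by
    rw [norm_real, Real.norm_eq_abs, abs_sub_comm, abs_of_nonneg (by linarith)]
    exact hdist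
  have hcw : c + w₀ = s := by apply Complex.ext <;> simp [c, w₀]
  have hsub : ∀ w ∈ closedBall w₀ (δ / 2), ‖w‖ ≤ 5 / 2 * δ := fun w hw => by
    rw [mem_closedBall, dist_eq_norm] at hw
    have := norm_le_norm_add_norm_sub' w w₀
    linarith
  have hw₀mem : w₀ ∈ ball (0 : ℂ) (3 * δ) := mem_ball_zero_iff.2 (by linarith)
  have hd : DiffContOnCl ℂ φ (ball w₀ (δ / 2)) := by
    refine DifferentiableOn.diffContOnCl ?_
    rw [closure_ball _ (by positivity)]
    exact fun w hw => (hder w (mem_ball_zero_iff.2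
      (by linarith [hsub w hw]))).differentiableAt.differentiableWithinAt
  have key : ‖deriv φ w₀‖ ≤ 10 * L / (δ / 2) := by
    refine norm_deriv_le_of_forall_mem_sphere_norm_le (by positivity) hd fun w hw => ?_
    have hn := hsub w (sphere_subset_closedBall hw)
    refine (hφ w (mem_ball_zero_iff.2 (by linarith))).trans ?_
    rw [div_le_iff₀ (by linarith)]
    nlinarith [mul_le_mul_of_nonneg_left hn hL.le]
  rw [(hder w₀ hw₀mem).deriv] at key
  simp only [f, deriv_comp_const_add, hcw] at key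
  refine key.trans ?_
  have eL : L ≤ (24 * P + 1) * l ^ 2 / a := by
    have e1 : 3 * P * l / δ = 24 * P * l ^ 2 / a := by rw [hδd]; field_simp; ring
    have e2 : 1 ≤ l ^ 2 / a := by
      rw [le_div_iff₀ ha]; nlinarith
    have e3 : (24 * P + 1) * l ^ 2 / a = 24 * P * l ^ 2 / a + l ^ 2 / a := by ring
    simp only [L, e1, e3]
    linarith
  have e4 : 10 * L / (δ / 2) = 20 * L * (8 * l / a) := by rw [hδd]; field_simp; ring
  rw [e4]
  refine (mul_le_mul_of_nonneg_right (mul_le_mul_of_nonneg_left eL (by norm_num : (0 : ℝ) ≤ 20))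
    (by positivity)).trans (le_of_eq ?_)
  field_simp
  ring

end FA.ChebError
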