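import Fermat.Agent.NaturalChebotarev.Continuation

/-!
# Polynomial growth of Hecke L-series in a strip, without a functional equation

A coset and its ideal differ by a series that converges for `1 - 1 / d < re s` and is `O (1 + |s|)`.
So `1 - M ^ (1 - s)` times the sum over all integers, `M = 2 ^ d`, grows polynomially in the strip,
and by the maximum principle between the horizontal lines where `M ^ (1 - s) < 0` so does `(s - 1)`
times the sum itself, and with it `(s - 1) L(s, f)` for a Hecke character `f` of finite order.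
-/

set_option autoImplicit false
set_option linter.unusedSectionVars false

noncomputable section

open NumberField NumberField.mixedEmbedding NumberField.InfinitePlace Module Filter Topology Ideal
open FA.Ext FA.PrimeIdeal FA.Hecke
open scoped nonZeroDivisors Classical Real

namespace FA.ChebError

variable {K : Type*} [Field K] [NumberField K]

/-- Polynomial growth in `1 - η ≤ re s ≤ 4`. -/
def StripBdd (η : ℝ) (F : ℂ → ℂ) : Prop :=
  ∃ (A : ℝ) (k : ℕ), 0 ≤ A ∧ ∀ s : ℂ, 1 - η ≤ s.re → s.re ≤ 4 → ‖F s‖ ≤ A * (1 + ‖s‖) ^ k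

namespace StripBdd

variable {η : ℝ} {F G : ℂ → ℂ}

theorem congr (h : StripBdd η F) (e : ∀ s, G s = F s) : StripBdd η G := by
  rwa [show G = F from funext e]

theorem of_bounded {B : ℝ} (h : ∀ s : ℂ, 1 - η ≤ s.re → s.re ≤ 4 → ‖F s‖ ≤ B) : StripBdd η F :=
  ⟨max B 0, 0, le_max_right _ _, fun s h1 h2 => by
    rw [pow_zero, mul_one]
    exact (h s h1 h2).trans (le_max_left _ _)⟩

theorem const (c : ℂ) : StripBdd η fun _ => c := of_bounded (B := ‖c‖) fun _ _ _ => le_rfl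

theorem sub_one : StripBdd η fun s : ℂ => s - 1 :=
  ⟨1, 1, zero_le_one, fun s _ _ => by
    rw [one_mul, pow_one]
    exact (norm_sub_le _ _).trans_eq (by rw [norm_one, add_comm])⟩

theorem add (h : StripBdd η F) (h' : StripBdd η G) : StripBdd η fun s => F s + G s := by
  obtain ⟨A, k, hA, hF⟩ := h
  obtain ⟨B, l, hB, hG⟩ := h'
  refine ⟨A + B, max k l, add_nonneg hA hB, fun s h1 h2 => (norm_add_le _ _).trans ?_⟩
  have h0 : (1 : ℝ) ≤ 1 + ‖s‖ := le_add_of_nonneg_right (norm_nonneg s)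
  rw [add_mul]
  refine add_le_add ((hF s h1 h2).trans ?_) ((hG s h1 h2).trans ?_)
  · exact mul_le_mul_of_nonneg_left (pow_le_pow_right₀ h0 (le_max_left k l)) hA
  · exact mul_le_mul_of_nonneg_left (pow_le_pow_right₀ h0 (le_max_right k l)) hB

theorem mul (h : StripBdd η F) (h' : StripBdd η G) : StripBdd η fun s => F s * G s := by
  obtain ⟨A, k, hA, hF⟩ := h
  obtain ⟨B, l, hB, hG⟩ := h'
  refine ⟨A * B, k + l, mul_nonneg hA hB, fun s h1 h2 => ?_⟩
  rw [norm_mul, pow_add, mul_mul_mul_comm]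
  exact mul_le_mul (hF s h1 h2) (hG s h1 h2) (norm_nonneg _) (by positivity)

theorem const_mul (h : StripBdd η F) (c : ℂ) : StripBdd η fun s => c * F s := (const c).mul h

theorem sum {ι : Type*} (S : Finset ι) {F : ι → ℂ → ℂ} (h : ∀ i ∈ S, StripBdd η (F i)) :
    StripBdd η fun s => ∑ i ∈ S, F i s := by
  induction S using Finset.induction_on with
  | empty => simpa using const 0
  | insert a S ha ih =>
    exact ((h a (Finset.mem_insert_self _ _)).add
      (ih fun i hi => h i (Finset.mem_insert_of_mem hi))).congr fun s => Finset.sum_insert ha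

theorem natCast_cpow {N : ℕ} (hN : 0 < N) : StripBdd η fun s : ℂ => (N : ℂ) ^ s :=
  of_bounded (B := (N : ℝ) ^ (4 : ℝ)) fun s _ h2 => by
    rw [Complex.norm_natCast_cpow_of_pos hN]
    exact Real.rpow_le_rpow_of_exponent_le (Nat.one_le_cast.2 hN) h2

/-- Dividing out `s - 1`. -/
theorem of_sub_one_mul (hF : Continuous F) (h : StripBdd η fun s => (s - 1) * F s) :
    StripBdd η F := by
  obtain ⟨A, k, hA, hG⟩ := h
  obtain ⟨B, hB⟩ := (isCompact_closedBall (1 : ℂ) 1).exists_bound_of_continuousOn hF.continuousOn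
  refine ⟨A + max B 0, k, add_nonneg hA (le_max_right _ _), fun s h1 h2 => ?_⟩
  have h0 : (1 : ℝ) ≤ (1 + ‖s‖) ^ k := one_le_pow₀ (le_add_of_nonneg_right (norm_nonneg s))
  rw [add_mul]
  rcases le_or_gt ‖s - 1‖ 1 with hs | hs
  · have := (hB s (by rwa [Metric.mem_closedBall, dist_eq_norm])).trans (le_max_left B 0)
    have := le_mul_of_one_le_right (le_max_right B 0) h0
    have : 0 ≤ A * (1 + ‖s‖) ^ k := by positivity
    linarith
  · have h3 := hG s h1 h2
    rw [norm_mul] at h3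
    have := le_mul_of_one_le_left (norm_nonneg (F s)) hs.le
    have : 0 ≤ max B 0 * (1 + ‖s‖) ^ k := by positivity
    linarith

end StripBdd

variable (K) in
/-- Half the width of convergence. -/
def stripEta : ℝ := 1 / (2 * finrank ℚ K)

variable (K) in
theorem stripEta_pos : 0 < stripEta K := by
  have : (0 : ℝ) < finrank ℚ K := Nat.cast_pos.2 finrank_pos
  rw [stripEta]; positivity

variable (K) in
theorem stripEta_le : stripEta K ≤ 1 / 2 := by
  have : (1 : ℝ) ≤ finrank ℚ K := Nat.one_le_cast.2 finrank_pos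
  exact one_div_le_one_div_of_le two_pos (by linarith)

/-- **The first remainder, linearly in `s`.** -/
theorem exists_taylorRem_le (J : Ideal (𝓞 K)) (a : mixedSpace K) {W : mixedSpace K → ℝ}
    (hW : IsSymbol 0 W) :
    ∃ u : J → ℝ, Summable u ∧ ∀ s : ℂ, 1 - 3 / (4 * finrank ℚ K) ≤ s.re → s.re ≤ 5 → ∀ y : J,
      ‖taylorRem a W 1 s (intEmb K (y : 𝓞 K))‖ ≤ (1 + ‖s‖) * u y := by
  choose A hA0 hA using fun i => exists_symTerm_le (isSymbol_iterW a hW 1 i)
  set d : ℝ := (finrank ℚ K : ℝ) with hd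
  have hd1 : 1 ≤ d := Nat.one_le_cast.2 finrank_pos
  obtain ⟨σ₁, hσ₁⟩ : ∃ σ₁, σ₁ = 1 - 3 / (4 * d) := ⟨_, rfl⟩
  have hdσ : d * σ₁ + 1 = d + 1 / 4 := by rw [hσ₁]; field_simp; ring
  have hσ₁0 : 0 < σ₁ := by
    have : 3 / (4 * d) ≤ 3 / 4 := div_le_div_of_nonneg_left (by norm_num) (by norm_num) (by linarith)
    rw [hσ₁]; linarith
  rw [← hσ₁]
  have hc := suppConst_pos (K := K)
  set D : ℝ := (A 0 + A 1) * suppConst K ^ (-(d * 5)) * 2 ^ (d + 1 / 4)
  have hD : 0 ≤ D := by have := hA0 0; have := hA0 1; positivity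
  set R : ℝ := 2 * ‖a‖ + 2
  set M : mixedSpace K → ℝ := fun x => |W x| * Real.exp (5 * |logN x|)
  have hM : ∀ x (s : ℂ), |s.re| ≤ 5 → ‖symTerm W s x‖ ≤ M x := fun x s hs => by
    rw [symTerm, norm_mul, Complex.norm_real, Real.norm_eq_abs, Complex.norm_exp]
    refine mul_le_mul_of_nonneg_left (Real.exp_le_exp.2 ?_) (abs_nonneg _)
    simp only [Complex.mul_re, Complex.neg_re, Complex.ofReal_re, Complex.ofReal_im, mul_zero,
      sub_zero]
    exact (le_abs_self _).trans (by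
      rw [abs_mul, abs_neg]; exact mul_le_mul_of_nonneg_right hs (abs_nonneg _))
  set u : J → ℝ := fun y => if ‖intEmb K (y : 𝓞 K)‖ < R then
    M (intEmb K (y : 𝓞 K) + a) + M (intEmb K (y : 𝓞 K)) else
    D * ‖intEmb K (y : 𝓞 K)‖ ^ (-(d + 1 / 4))
  refine ⟨u, ?_, fun s h1 h2 y => ?_⟩
  · refine (((summable_norm_intEmb (show -(d + 1 / 4) < -(finrank ℚ K : ℝ) by
      rw [← hd]; linarith)).comp_injective Subtype.val_injective).mul_left D).congr_cofinite ?_
    filter_upwards [(finite_norm_lt J R).eventually_cofinite_notMem] with y hy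
    exact (if_neg hy).symm
  have hs0 : 0 ≤ s.re := hσ₁0.le.trans h1
  have hs : |s.re| ≤ 5 := by rwa [abs_of_nonneg hs0]
  have hs1 : (1 : ℝ) ≤ 1 + ‖s‖ := le_add_of_nonneg_right (norm_nonneg s)
  simp only [u]
  split_ifs with hy
  · refine le_trans ?_ (le_mul_of_one_le_left (by simp only [M]; positivity) hs1)
    rw [taylorRem, Finset.sum_range_one, symIter_zero]
    simp only [Nat.factorial_zero, Nat.cast_one, inv_one, one_mul]
    exact (norm_sub_le _ _).trans (add_le_add (hM _ s hs) (hM _ s hs))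
  set z₀ := intEmb K (y : 𝓞 K)
  set r := ‖z₀‖
  have hr : R ≤ r := not_lt.1 hy
  have hseg : ∀ t ∈ Set.Icc (0 : ℝ) 1, 1 ≤ ‖z₀ + t • a‖ ∧ r / 2 ≤ ‖z₀ + t • a‖ := fun t ht => by
    have h3 : ‖t • a‖ ≤ ‖a‖ := by
      rw [_root_.norm_smul, Real.norm_of_nonneg ht.1]
      exact mul_le_of_le_one_left (norm_nonneg a) ht.2
    have h4 := norm_sub_le (z₀ + t • a) (t • a)
    rw [add_sub_cancel_right] at h4
    simp only [R] at hr
    constructor <;> linarith [norm_nonneg a]
  have h := norm_taylor_le 1 (fun j t => symIter a W j s (z₀ + t • a))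
    ((1 + ‖s‖) * (D * r ^ (-(d + 1 / 4))))
    (fun j t ht => hasDerivAt_symIter hW j s fun h => by
      have := (hseg t ht).1
      rw [h, norm_zero] at this
      linarith)
    (fun t ht => ?_) 1 ⟨zero_le_one, le_rfl⟩
  · simpa [taylorRem, symIter_zero] using h
  obtain ⟨hz1, hz2⟩ := hseg t ht
  obtain ⟨Q, hQ⟩ : ∃ Q, Q = suppConst K ^ (-(d * 5)) * (2 ^ (d + 1 / 4) * r ^ (-(d + 1 / 4))) :=
    ⟨_, rfl⟩
  have hbd : ∀ i, ‖symTerm (iterW a W 1 i) s (z₀ + t • a)‖ ≤ A i * Q := fun i => by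
    refine (hA i s _).trans ?_
    rw [hQ, mul_assoc]
    refine mul_le_mul_of_nonneg_left (mul_le_mul ?_ ?_ (by positivity) (by positivity)) (hA0 i)
    · exact Real.rpow_le_rpow_of_exponent_ge hc suppConst_le_one
        (neg_le_neg (mul_le_mul_of_nonneg_left hs (by linarith)))
    · refine (Real.rpow_le_rpow_of_exponent_le hz1 (show -(d * s.re + ((0 + 1 : ℕ) : ℝ)) ≤
        -(d + 1 / 4) by
          push_cast
          linarith [mul_le_mul_of_nonneg_left h1 (show 0 ≤ d by linarith)])).trans ?_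
      have hr0 : 0 < r := by simp only [R] at hr; linarith [norm_nonneg a]
      refine (Real.rpow_le_rpow_of_nonpos (by positivity) hz2 (by linarith)).trans (le_of_eq ?_)
      rw [Real.div_rpow hr0.le zero_le_two, Real.rpow_neg zero_le_two, div_inv_eq_mul, mul_comm]
  have e : D * r ^ (-(d + 1 / 4)) = (A 0 + A 1) * Q := by rw [hQ]; simp only [D]; ring
  rw [e, symIter, Finset.sum_range_succ, Finset.sum_range_one, pow_zero, one_mul, pow_one]
  refine (norm_add_le _ _).trans ?_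
  rw [norm_mul]
  have := mul_le_mul_of_nonneg_left (hbd 1) (norm_nonneg s)
  have hQ0 : 0 ≤ Q := by rw [hQ]; positivity
  nlinarith [hbd 0, mul_nonneg (norm_nonneg s) (mul_nonneg (hA0 0) hQ0), mul_nonneg (hA0 1) hQ0]

/-- **A coset and its ideal differ by a function of linear growth.** -/
theorem stripBdd_coset {W : mixedSpace K → ℝ} (hW : IsSymbol 0 W) (J : Ideal (𝓞 K)) (a : 𝓞 K)
    {H : ℂ → ℂ} (hH : Differentiable ℂ H)
    (h : ∀ s : ℂ, 1 < s.re →
      (∑' y : J, symTerm W s (intEmb K (a + (y : 𝓞 K)))) - latSum J (symTerm W) s = H s) :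
    StripBdd (stripEta K) H := by
  obtain ⟨u, hu, hb⟩ := exists_taylorRem_le J (intEmb K a) hW
  set T := latSum J (taylorRem (intEmb K a) W 1)
  obtain ⟨σ₁, hσ₁⟩ : ∃ σ₁ : ℝ, σ₁ = 1 - 3 / (4 * finrank ℚ K) := ⟨_, rfl⟩
  rw [← hσ₁] at hb
  have hd : (0 : ℝ) < finrank ℚ K := Nat.cast_pos.2 finrank_pos
  have hσ₁1 : σ₁ < 1 := by rw [hσ₁]; linarith [show 0 < 3 / (4 * (finrank ℚ K : ℝ)) by positivity]
  have hu0 : ∀ y, 0 ≤ u y := fun y => by
    have := (norm_nonneg _).trans (hb (σ₁ : ℂ) (by simp) (by simp; linarith) y)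
    exact nonneg_of_mul_nonneg_right this (by positivity)
  have hTd : ∀ z : ℂ, σ₁ < z.re → z.re < 5 → DifferentiableAt ℂ T z := fun z hz1 hz2 => by
    set V : Set ℂ := {s : ℂ | σ₁ < s.re ∧ s.re < 5 ∧ ‖s‖ < ‖z‖ + 1}
    have hV : IsOpen V := (isOpen_lt continuous_const Complex.continuous_re).inter
      ((isOpen_lt Complex.continuous_re continuous_const).inter
        (isOpen_lt continuous_norm continuous_const))
    refine (Complex.differentiableOn_tsum_of_summable_norm (hu.mul_left (‖z‖ + 2))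
      (fun y => ?_) hV fun y s hs => ?_).differentiableAt (hV.mem_nhds ⟨hz1, hz2, by linarith⟩)
    · exact ((differentiable_symTerm W _).sub (Differentiable.fun_sum fun j _ =>
        (Differentiable.fun_sum fun i _ => (differentiable_pow i).mul
          (differentiable_symTerm _ _)).const_mul _)).differentiableOn
    · exact (hb s hs.1.le hs.2.1.le y).trans
        (mul_le_mul_of_nonneg_right (by linarith [hs.2.2]) (hu0 y))
  set V : Set ℂ := {s : ℂ | σ₁ < s.re} ∩ {s : ℂ | s.re < 5}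
  have hV : IsOpen V := (isOpen_lt continuous_const Complex.continuous_re).inter
    (isOpen_lt Complex.continuous_re continuous_const)
  have heq : Set.EqOn H T V := by
    refine (hH.differentiableOn.analyticOnNhd hV).eqOn_of_preconnected_of_eventuallyEq
      ((show DifferentiableOn ℂ T V from fun z hz =>
        (hTd z hz.1 hz.2).differentiableWithinAt).analyticOnNhd hV)
      ((convex_halfSpace_re_gt _).inter (convex_halfSpace_re_lt _)).isPreconnected (z₀ := 2)
      ⟨show σ₁ < (2 : ℂ).re by norm_num; linarith, show (2 : ℂ).re < 5 by norm_num⟩ ?_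
    filter_upwards [(isOpen_lt continuous_const Complex.continuous_re).mem_nhds
      (show (1 : ℝ) < (2 : ℂ).re by norm_num)] with s hs
    rw [← h s hs]
    show _ = latSum J (taylorRem (intEmb K a) W (0 + 1)) s
    rw [latSum_taylorRem J a 0 hW hs, Finset.sum_range_zero, sub_zero]
  refine ⟨∑' y, u y, 1, tsum_nonneg hu0, fun s h1 h2 => ?_⟩
  have h1' : σ₁ < s.re := by
    refine lt_of_lt_of_le ?_ h1
    rw [hσ₁, stripEta, sub_lt_sub_iff_left, div_lt_div_iff₀ (by positivity) (by positivity)]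
    linarith
  rw [heq ⟨h1', show s.re < 5 by linarith⟩, pow_one, ← tsum_mul_right]
  refine tsum_of_norm_bounded ((hu.mul_right (1 + ‖s‖)).hasSum) fun y => ?_
  rw [mul_comm]
  exact hb s h1'.le (by linarith) y

theorem symZ_eq_sum_coset {W : mixedSpace K → ℝ} (hW : IsSymbol 0 W) (J : Ideal (𝓞 K))
    [Fintype (𝓞 K ⧸ J)] {s : ℂ} (hs : 1 < s.re) :
    symZ W s = ∑ t : 𝓞 K ⧸ J, ∑' y : J, symTerm W s (intEmb K (Quotient.out t + (y : 𝓞 K))) := by
  have hmk : ∀ t : 𝓞 K ⧸ J, Ideal.Quotient.mk J (Quotient.out t) = t := Quotient.out_eq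
  let e : (𝓞 K ⧸ J) × J → 𝓞 K := fun ty => Quotient.out ty.1 + (ty.2 : 𝓞 K)
  have he : Function.Bijective e := by
    constructor
    · rintro ⟨t, y⟩ ⟨t', y'⟩ h
      obtain rfl : t = t' := by
        have := congrArg (Ideal.Quotient.mk J) h
        simpa [e, hmk, Ideal.Quotient.eq_zero_iff_mem.mpr y.2,
          Ideal.Quotient.eq_zero_iff_mem.mpr y'.2] using this
      simpa [e] using h
    · intro x
      refine ⟨⟨Ideal.Quotient.mk J x, ⟨x - Quotient.out (Ideal.Quotient.mk J x), ?_⟩⟩, ?_⟩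
      · rw [← Ideal.Quotient.eq_zero_iff_mem, map_sub, hmk, sub_self]
      · simp [e]
  have hsum : Summable fun ty => symTerm W s (intEmb K (e ty)) :=
    (summable_symTerm hW hs).comp_injective he.1
  rw [symZ, ← (Equiv.ofBijective e he).tsum_eq]
  simp only [Equiv.ofBijective_apply]
  rw [hsum.tsum_prod, tsum_fintype]

/-- **An ideal and the whole ring.** -/
theorem stripBdd_ideal {W : mixedSpace K → ℝ} (hW : IsSymbol 0 W) (J : (Ideal (𝓞 K))⁰)
    {H : ℂ → ℂ} (hH : Differentiable ℂ H)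
    (h : ∀ s : ℂ, 1 < s.re →
      symZ W s - (absNorm J.1 : ℂ) * latSum J.1 (symTerm W) s = H s) :
    StripBdd (stripEta K) H := by
  have hJ : J.1 ≠ ⊥ := nonZeroDivisors.coe_ne_zero J
  have : Finite (𝓞 K ⧸ J.1) := Ideal.finiteQuotientOfFreeOfNeBot J.1 hJ
  let _ : Fintype (𝓞 K ⧸ J.1) := Fintype.ofFinite _
  choose H' hH' hH₁ using fun t : 𝓞 K ⧸ J.1 => exists_coset_symbol hW J.1 hJ (Quotient.out t)
  have e : H = fun s => ∑ t, H' t s :=
    eq_of_eq_halfPlane hH (Differentiable.fun_sum fun t _ => hH' t) fun s hs => by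
      rw [← h s hs, symZ_eq_sum_coset hW J.1 hs, ← Finset.sum_congr rfl fun t _ => hH₁ t s hs,
        Finset.sum_sub_distrib, Finset.sum_const, Finset.card_univ, nsmul_eq_mul,
        Ideal.absNorm_apply, Submodule.cardQuot_apply, Nat.card_eq_fintype_card]
  rw [e]
  exact StripBdd.sum _ fun t _ => stripBdd_coset hW J.1 _ (hH' t) (hH₁ t)

/-- **Dividing out `1 - M ^ (1 - s)`, by the maximum principle.** -/
theorem stripBdd_of_twist {M : ℕ} (hM : 2 ≤ M) {η : ℝ} (hη : 0 < η) (hη1 : η ≤ 1 / 2)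
    {G : ℂ → ℂ} (hG : Differentiable ℂ G)
    (h : StripBdd η fun s => twistFactor M s * G s) : StripBdd η G := by
  obtain ⟨A, k, hA, hb⟩ := h
  have hM1 : (1 : ℝ) < M := by exact_mod_cast hM
  have hM0 : 0 < M := by omega
  obtain ⟨L, hLdef⟩ : ∃ L : ℝ, L = Real.log M := ⟨_, rfl⟩
  have hL : 0 < L := hLdef ▸ Real.log_pos hM1
  set δ := min (min ((M : ℝ) ^ η - 1) (1 - (M : ℝ) ^ (-η))) 1
  have hδ : 0 < δ := by
    have := Real.one_lt_rpow hM1 hη
    have := Real.rpow_lt_one_of_one_lt_of_neg hM1 (neg_neg_of_pos hη)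
    simp only [δ, lt_min_iff]
    exact ⟨⟨by linarith, by linarith⟩, one_pos⟩
  have hline : ∀ w : ℂ, (w.re = 1 - η ∨ 1 + η ≤ w.re ∨ ∃ j : ℤ, w.im = (2 * j + 1) * π / L) →
      δ ≤ ‖twistFactor M w‖ := fun w hw => by
    have hn : ‖(M : ℂ) ^ (1 - w)‖ = (M : ℝ) ^ (1 - w.re) := by
      rw [Complex.norm_natCast_cpow_of_pos hM0, Complex.sub_re, Complex.one_re]
    rw [twistFactor]
    rcases hw with hw | hw | ⟨j, hj⟩
    · have h1 := norm_sub_norm_le ((M : ℂ) ^ (1 - w)) 1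
      rw [norm_sub_rev, hn, norm_one, hw, sub_sub_cancel] at h1
      exact ((min_le_left _ _).trans (min_le_left _ _)).trans h1
    · have h1 := norm_sub_norm_le (1 : ℂ) ((M : ℂ) ^ (1 - w))
      rw [hn, norm_one] at h1
      have : (M : ℝ) ^ (1 - w.re) ≤ (M : ℝ) ^ (-η) :=
        Real.rpow_le_rpow_of_exponent_le hM1.le (by linarith)
      exact ((min_le_left _ _).trans (min_le_right _ _)).trans (by linarith)
    · have e : (M : ℂ) ^ (1 - w) = ((-Real.exp ((1 - w.re) * L) : ℝ) : ℂ) := by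
        have e1 : Complex.log (M : ℂ) * (1 - w) =
            (((1 - w.re) * L : ℝ) : ℂ) + ((-(2 * j + 1) : ℤ) : ℂ) * (π * Complex.I) := by
          rw [← Complex.natCast_log, ← hLdef]
          have hjL : L * w.im = (2 * j + 1) * π := by rw [hj]; field_simp
          apply Complex.ext <;> simp
          · ring
          · linarith
        rw [Complex.cpow_def_of_ne_zero (Nat.cast_ne_zero.2 hM0.ne'), e1, Complex.exp_add,
          Complex.exp_int_mul, Complex.exp_pi_mul_I, Odd.neg_one_zpow ⟨-j - 1, by ring⟩,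
          ← Complex.ofReal_exp, mul_neg_one, Complex.ofReal_neg]
      rw [e, ← Complex.ofReal_one, ← Complex.ofReal_sub, Complex.norm_real, sub_neg_eq_add]
      refine (min_le_right _ _).trans (le_trans ?_ (le_abs_self _))
      linarith [Real.exp_pos ((1 - w.re) * L)]
  have hbd : ∀ w : ℂ, 1 - η ≤ w.re → w.re ≤ 4 →
      (w.re = 1 - η ∨ 1 + η ≤ w.re ∨ ∃ j : ℤ, w.im = (2 * j + 1) * π / L) →
      ‖G w‖ ≤ A / δ * (1 + ‖w‖) ^ k := fun w h1 h2 hw => by
    rw [div_mul_eq_mul_div, le_div_iff₀ hδ]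
    refine le_trans ?_ (hb w h1 h2)
    rw [norm_mul, mul_comm]
    exact mul_le_mul_of_nonneg_right (hline w hw) (norm_nonneg _)
  set P := 2 * π / L
  have hP : 0 < P := by positivity
  refine ⟨A / δ * (2 + P) ^ k, k, by positivity, fun s h1 h2 => ?_⟩
  have hs0 : (0 : ℝ) ≤ ‖s‖ := norm_nonneg s
  rw [mul_assoc, ← mul_pow]
  rcases le_or_gt (1 + η) s.re with hs | hs
  · refine (hbd s h1 h2 (Or.inr (Or.inl hs))).trans ?_
    gcongr
    nlinarith
  set j := ⌊(s.im * L / π - 1) / 2⌋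
  have hj1 := Int.floor_le ((s.im * L / π - 1) / 2)
  have hj2 := Int.lt_floor_add_one ((s.im * L / π - 1) / 2)
  set c := (2 * (j : ℝ) + 1) * π / L
  have hc : c ≤ s.im := by
    rw [div_le_iff₀ hL, ← le_div_iff₀ Real.pi_pos]
    linarith
  have hcP : s.im ≤ c + P := by
    have e : c + P = (2 * (j : ℝ) + 3) * π / L := by simp only [c, P]; ring
    rw [e, le_div_iff₀ hL, ← div_le_iff₀ Real.pi_pos]
    linarith
  refine Complex.norm_le_of_forall_mem_frontier_norm_le
    (U := Set.Ioo (1 - η) (1 + η) ×ℂ Set.Ioo c (c + P))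
    ((Metric.isBounded_Ioo _ _).reProdIm (Metric.isBounded_Ioo _ _)) hG.diffContOnCl
    (fun w hw => ?_) ?_
  · rw [Complex.frontier_reProdIm, closure_Ioo (by linarith), closure_Ioo (by linarith),
      frontier_Ioo (by linarith), frontier_Ioo (by linarith)] at hw
    have hw' : w.re ∈ Set.Icc (1 - η) (1 + η) ∧ w.im ∈ Set.Icc c (c + P) ∧
        (w.re = 1 - η ∨ 1 + η ≤ w.re ∨ ∃ i : ℤ, w.im = (2 * i + 1) * π / L) := by
      rcases hw with ⟨hr, hi⟩ | ⟨hr, hi⟩
      · rcases hi with hi | hi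
        · exact ⟨hr, ⟨hi.ge, by linarith⟩, Or.inr (Or.inr ⟨j, hi⟩)⟩
        · refine ⟨hr, ⟨by linarith [hi.ge], hi.le⟩, Or.inr (Or.inr ⟨j + 1, ?_⟩)⟩
          rw [hi]
          simp only [c, P]
          push_cast
          ring
      · rcases hr with hr | hr
        · exact ⟨⟨hr.ge, by linarith⟩, hi, Or.inl hr⟩
        · exact ⟨⟨by linarith [hr.ge], hr.le⟩, hi, Or.inr (Or.inl hr.ge)⟩
    obtain ⟨⟨hr1, hr2⟩, ⟨hi1, hi2⟩, hcase⟩ := hw'
    refine (hbd w hr1 (by linarith) hcase).trans ?_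
    gcongr
    have h3 : ‖w - s‖ ≤ 1 + P := by
      refine (Complex.norm_le_abs_re_add_abs_im _).trans (add_le_add ?_ ?_) <;>
        simp only [Complex.sub_re, Complex.sub_im, abs_le] <;> constructor <;> linarith
    have := norm_le_norm_add_norm_sub' w s
    nlinarith
  · rw [Complex.closure_reProdIm, closure_Ioo (by linarith), closure_Ioo (by linarith)]
    exact ⟨⟨h1, hs.le⟩, hc, hcP⟩

/-- **`(s - 1)` times the sum over all integers.** -/
theorem stripBdd_symZ {W : mixedSpace K → ℝ} (hW : IsSymbol 0 W) {G : ℂ → ℂ}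
    (hG : Differentiable ℂ G) (hG' : ∀ s : ℂ, 1 < s.re → (s - 1) * symZ W s = G s) :
    StripBdd (stripEta K) G := by
  obtain ⟨H, hH, hH'⟩ := exists_twisted_symbol hW 2 two_ne_zero
  have h2 : (2 : 𝓞 K) ≠ 0 := two_ne_zero
  have hHb : StripBdd (stripEta K) H := by
    refine stripBdd_ideal hW ⟨Ideal.span {((2 : ℕ) : 𝓞 K)}, mem_nonZeroDivisors_iff_ne_zero.mpr
      (by simp)⟩ hH fun s hs => ?_
    rw [← hH' s hs, latSum_span_natCast hW two_ne_zero, PrimeIdeal.absNorm_span_natCast,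
      twistFactor, ← mul_assoc, sub_mul, one_mul, sub_eq_add_neg (1 : ℂ) s,
      Complex.cpow_add _ _ (Nat.cast_ne_zero.mpr (pow_ne_zero _ two_ne_zero)), Complex.cpow_one]
  have hM : 2 ≤ 2 ^ finrank ℚ K := Nat.le_self_pow (finrank_pos).ne' 2
  refine stripBdd_of_twist hM (stripEta_pos K) (stripEta_le K) hG ?_
  refine (StripBdd.sub_one.mul hHb).congr fun s => congrFun (eq_of_eq_halfPlane
    (f := fun s => twistFactor (2 ^ finrank ℚ K) s * G s) (g := fun s => (s - 1) * H s)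
    ((differentiable_twistFactor (by positivity)).mul hG)
    ((differentiable_id.sub_const 1).mul hH) fun z hz => ?_) s
  show twistFactor (2 ^ finrank ℚ K) z * G z = (z - 1) * H z
  rw [← hG' z hz, ← hH' z hz, mul_left_comm]

variable {𝔪 : Ideal (𝓞 K)} {f : Ideal (𝓞 K) →* ℂ}

/-- **The sum over an ideal prime to the modulus.** -/
theorem stripBdd_idealSum (h : IsRayChar 𝔪 f) (J : (Ideal (𝓞 K))⁰) (hJ : J.1 ⊔ 𝔪 = ⊤)
    {Φ : ℂ → ℂ} (hΦ : Differentiable ℂ Φ)
    (hΦ' : ∀ s : ℂ, 1 < s.re → (s - 1) * idealSum f J.1 s = Φ s) :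
    StripBdd (stripEta K) Φ := by
  have : Finite (𝓞 K ⧸ 𝔪) := Ideal.finiteQuotientOfFreeOfNeBot 𝔪 h.ne_bot
  let _ : Fintype (𝓞 K ⧸ 𝔪) := Fintype.ofFinite _
  choose Z hZ hZ' using fun σ : {w : InfinitePlace K // IsReal w} → Bool =>
    exists_symZ (K := K) (isSymbol_signW σ)
  obtain ⟨j, hj, k, hk, hjk⟩ := Submodule.mem_sup.mp ((Ideal.eq_top_iff_one _).mp hJ)
  let r : (𝓞 K ⧸ 𝔪) → 𝓞 K := fun t => Quotient.out t * j
  have hmk : ∀ t, Ideal.Quotient.mk 𝔪 (r t) = t := fun t => by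
    refine (Ideal.Quotient.eq.mpr ?_).trans (Quotient.out_eq t)
    have : r t - Quotient.out t = -(Quotient.out t * k) := by
      simp only [r]; linear_combination (Quotient.out t : 𝓞 K) * hjk
    rw [this]
    exact 𝔪.neg_mem (𝔪.mul_mem_left _ hk)
  have hJ'0 : J.1 * 𝔪 ∈ (Ideal (𝓞 K))⁰ :=
    mem_nonZeroDivisors_iff_ne_zero.mpr (mul_ne_zero (nonZeroDivisors.coe_ne_zero J) h.ne_bot)
  set J' : Ideal (𝓞 K) := J.1 * 𝔪 with hJ'def
  have hJ' : J' = J.1 ⊓ 𝔪 := Ideal.mul_eq_inf_of_coprime hJ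
  choose H hH hH' using fun (t : 𝓞 K ⧸ 𝔪) (σ : {w : InfinitePlace K // IsReal w} → Bool) =>
    exists_coset_symbol (isSymbol_signW σ) J' (nonZeroDivisors.coe_ne_zero ⟨J', hJ'0⟩) (r t)
  choose H' hH₂ hH₂' using fun σ : {w : InfinitePlace K // IsReal w} → Bool =>
    exists_ideal_symbol (isSymbol_signW σ) ⟨J', hJ'0⟩
  set N : ℂ := ((absNorm J' : ℕ) : ℂ) with hN
  have hN0 : N ≠ 0 := Nat.cast_ne_zero.mpr (absNorm_ne_zero_of_nonZeroDivisors ⟨J', hJ'0⟩)
  let e : (𝓞 K ⧸ 𝔪) × J' → J.1 := fun ty => ⟨r ty.1 + (ty.2 : 𝓞 K),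
    J.1.add_mem (J.1.mul_mem_left _ hj) ((hJ'.le.trans inf_le_left) ty.2.2)⟩
  have hy : ∀ z : J', Ideal.Quotient.mk 𝔪 (z : 𝓞 K) = 0 := fun z =>
    Ideal.Quotient.eq_zero_iff_mem.mpr ((hJ'.le.trans inf_le_right) z.2)
  have he : Function.Bijective e := by
    constructor
    · rintro ⟨t, y⟩ ⟨t', y'⟩ h'
      have h'' : r t + (y : 𝓞 K) = r t' + (y' : 𝓞 K) := congrArg Subtype.val h'
      obtain rfl : t = t' := by
        have := congrArg (Ideal.Quotient.mk 𝔪) h''
        simpa [hmk, hy] using this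
      simpa using h''
    · intro x
      refine ⟨⟨Ideal.Quotient.mk 𝔪 x, ⟨(x : 𝓞 K) - r (Ideal.Quotient.mk 𝔪 x), ?_⟩⟩, ?_⟩
      · rw [hJ']
        refine ⟨J.1.sub_mem x.2 (J.1.mul_mem_left _ hj), ?_⟩
        show _ ∈ 𝔪
        rw [← Ideal.Quotient.eq_zero_iff_mem, map_sub, hmk, sub_self]
      · exact Subtype.ext (by simp [e])
  have hd : Differentiable ℂ fun s => ∑ t, ∑ σ, resVal 𝔪 f (t, σ) *
      (N⁻¹ * (Z σ s + -1 * ((s - 1) * H' σ s)) + (s - 1) * H t σ s) :=
    Differentiable.fun_sum fun t _ => Differentiable.fun_sum fun σ _ =>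
      ((((hZ σ).add (((differentiable_id.sub_const 1).mul (hH₂ σ)).const_mul _)).const_mul N⁻¹).add
        ((differentiable_id.sub_const 1).mul (hH t σ))).const_mul _
  rw [eq_of_eq_halfPlane hΦ hd fun s hs => ?_]
  · exact StripBdd.sum _ fun t _ => StripBdd.sum _ fun σ _ =>
      ((((stripBdd_symZ (isSymbol_signW σ) (hZ σ) (hZ' σ)).add
        ((StripBdd.sub_one.mul (stripBdd_ideal (isSymbol_signW σ) ⟨J', hJ'0⟩ (hH₂ σ)
          (hH₂' σ))).const_mul (-1))).const_mul N⁻¹).add (StripBdd.sub_one.mul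
            (stripBdd_coset (isSymbol_signW σ) J' _ (hH t σ) (hH' t σ)))).const_mul _
  have hcoset : ∀ (t : 𝓞 K ⧸ 𝔪) (σ : {w : InfinitePlace K // IsReal w} → Bool),
      Summable fun y : J' => symTerm (signW σ) s (intEmb K (r t + (y : 𝓞 K))) := fun t σ =>
    (summable_symTerm (isSymbol_signW σ) hs).comp_injective
      ((add_right_injective (r t)).comp Subtype.val_injective)
  have hsum : Summable fun ty => f (Ideal.span {(e ty : 𝓞 K)}) * lterm s (e ty : 𝓞 K) :=
    ((h.summable_idealTerm hs).comp_injective Subtype.val_injective).comp_injective he.1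
  rw [← hΦ' s hs, idealSum, ← (Equiv.ofBijective e he).tsum_eq]
  simp only [Equiv.ofBijective_apply]
  rw [hsum.tsum_prod, tsum_fintype, Finset.mul_sum]
  refine Finset.sum_congr rfl fun t _ => ?_
  have hrow : ∀ y : J', f (Ideal.span {(e (t, y) : 𝓞 K)}) * lterm s (e (t, y) : 𝓞 K) =
      ∑ σ, resVal 𝔪 f (t, σ) * symTerm (signW σ) s (intEmb K (r t + (y : 𝓞 K))) := fun y => by
    have ht : Ideal.Quotient.mk 𝔪 (e (t, y) : 𝓞 K) = t := by
      show Ideal.Quotient.mk 𝔪 (r t + (y : 𝓞 K)) = t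
      rw [map_add, hy, add_zero, hmk]
    rw [h.idealTerm_eq, ht]
  simp only [hrow]
  rw [Summable.tsum_finsetSum fun σ _ => (hcoset t σ).mul_left _, Finset.mul_sum]
  refine Finset.sum_congr rfl fun σ _ => ?_
  rw [tsum_mul_left, ← hZ' σ s hs, ← hH₂' σ s hs, ← hH' t σ s hs]
  show _ = resVal 𝔪 f (t, σ) * (N⁻¹ * ((s - 1) * symZ (signW σ) s +
    -1 * ((s - 1) * (symZ (signW σ) s - N * latSum J' (symTerm (signW σ)) s))) + _)
  field_simp
  ring

/-- **`(s - 1) L(s, f)` grows polynomially in the strip.** -/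
theorem stripBdd_heckeG (h : IsRayChar 𝔪 f) {G : ℂ → ℂ} (hG : Differentiable ℂ G)
    (hG' : ∀ s : ℂ, 1 < s.re → (s - 1) * heckeL f s = G s) : StripBdd (stripEta K) G := by
  obtain ⟨R, hR⟩ := exists_idealSum h
  choose J hJC hJ using exists_coprime_class h.ne_bot
  choose Φ hΦ _ hΦ' using fun C => hR (J C) (hJ C)
  set τ : ℂ := (Units.torsionOrder K : ℂ) with hτ
  have hτ0 : τ ≠ 0 := Nat.cast_ne_zero.mpr (Units.torsionOrder_pos K).ne'
  have hN : ∀ C, ((absNorm (J C).1 : ℕ) : ℂ) ≠ 0 := fun C =>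
    Nat.cast_ne_zero.mpr (absNorm_ne_zero_of_nonZeroDivisors (J C))
  have hfJ : ∀ C, f (J C).1 ≠ 0 := fun C =>
    (h.ne_zero_iff _ (nonZeroDivisors.coe_ne_zero (J C))).mpr (hJ C)
  have hd : Differentiable ℂ fun s => ∑ C, (τ * f (J C).1)⁻¹ *
      (Φ C s * ((absNorm (J C).1 : ℕ) : ℂ) ^ s) :=
    Differentiable.fun_sum fun C _ =>
      ((hΦ C).mul (differentiable_id.const_cpow (Or.inl (hN C)))).const_mul _
  rw [eq_of_eq_halfPlane hG hd fun s hs => ?_]
  · exact StripBdd.sum _ fun C _ => ((stripBdd_idealSum h (J C) (hJ C) (hΦ C) (hΦ' C)).mul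
      (StripBdd.natCast_cpow (Nat.pos_of_ne_zero
        (absNorm_ne_zero_of_nonZeroDivisors (J C))))).const_mul _
  rw [← hG' s hs, heckeL_eq_sum h hs, Finset.mul_sum]
  refine Finset.sum_congr rfl fun C _ => ?_
  show _ = (τ * f (J C).1)⁻¹ * (Φ C s * _)
  rw [← hΦ' C s hs, idealSum_eq h (hJC C) hs, lHom_apply, ← hτ,
    show AbelianZeta.normPow s (J C) = ((absNorm (J C).1 : ℕ) : ℂ) ^ (-s) from rfl,
    Complex.cpow_neg]
  field_simp [hfJ C, Complex.cpow_ne_zero_iff.mpr (Or.inl (hN C))]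

/-- **A nontrivial L-series grows polynomially in the strip.** -/
theorem stripBdd_heckeE (h : IsRayChar 𝔪 f) {E : ℂ → ℂ} (hE : Differentiable ℂ E)
    (hE' : ∀ s : ℂ, 1 < s.re → heckeL f s = E s) : StripBdd (stripEta K) E :=
  StripBdd.of_sub_one_mul hE.continuous (stripBdd_heckeG h ((differentiable_id.sub_const 1).mul hE)
    fun s hs => by rw [hE' s hs])

end FA.ChebError

end
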