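import Fermat.Agent.ChebotarevError.StripGrowth
import Fermat.Agent.ChebotarevError.LogDeriv
import Fermat.Agent.NaturalChebotarev.Nonvanishing

/-!
# The classical zero-free region of a Hecke L-series of finite order

The inequality of Mertens for the logarithmic derivatives of `ζ_K`, `L(f)` and `L(f²)` with Landau's
lemma excludes the zeros with `re s ≥ 1 - c / ell (im s)` for `|im s| ≥ 1`; those near the segment
below are excluded by compactness. The constants depend on the field and on the character.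
-/

set_option autoImplicit false
set_option linter.unusedSectionVars false

noncomputable section

open NumberField IsDedekindDomain Module Filter Topology Ideal Metric
open FA.Ext FA.PrimeIdeal FA.Hecke FA.ZeroFree
open scoped nonZeroDivisors Classical Real

namespace FA.ChebError

variable {K : Type*} [Field K] [NumberField K] {𝔪 : Ideal (𝓞 K)} {f : Ideal (𝓞 K) →* ℂ}

/-- An L-series with its pole removed. -/
structure Cleared (f : Ideal (𝓞 K) →* ℂ) (e : ℕ) (H : ℂ → ℂ) : Prop where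
  diff : Differentiable ℂ H
  le_one : e ≤ 1
  series : ∀ s : ℂ, 1 < s.re → H s = (s - 1) ^ e * heckeL f s
  ne_zero : ∀ s : ℂ, 1 ≤ s.re → H s ≠ 0
  growth : StripBdd (stripEta K) H

theorem exists_cleared (h : IsRayChar 𝔪 f) :
    ∃ H : ℂ → ℂ, Cleared f (if IsNontrivial f then 0 else 1) H := by
  by_cases hnt : IsNontrivial f
  · obtain ⟨E, hE, hE'⟩ := exists_heckeE h hnt
    refine ⟨E, hE, by simp [hnt], fun s hs => ?_, fun s hs => h.heckeE_ne_zero hE hE' hs,
      stripBdd_heckeE h hE hE'⟩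
    rw [if_pos hnt, pow_zero, one_mul, hE' s hs]
  · obtain ⟨G, hG, -, hG'⟩ := exists_heckeG h
    refine ⟨G, hG, by simp [hnt], fun s hs => ?_, fun s hs => h.heckeG_ne_zero hnt hG hG' hs,
      stripBdd_heckeG h hG hG'⟩
    rw [if_neg hnt, pow_one, hG' s hs]

theorem StripBdd.exists_exp {η : ℝ} (hη : η ≤ 1) {F : ℂ → ℂ} (h : StripBdd η F) :
    ∃ P : ℝ, 1 ≤ P ∧ ∀ s : ℂ, 1 - η ≤ s.re → s.re ≤ 4 → ‖F s‖ ≤ Real.exp (P * ell s.im) := by
  obtain ⟨A, k, hA, hb⟩ := h
  refine ⟨A + k + 1, by linarith [(Nat.cast_nonneg k : (0 : ℝ) ≤ k)], fun s h1 h2 => ?_⟩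
  refine (hb s h1 h2).trans ?_
  have hn : 1 + ‖s‖ ≤ |s.im| + 100 := by
    have := Complex.norm_le_abs_re_add_abs_im s
    rw [abs_of_nonneg (by linarith : 0 ≤ s.re)] at this
    linarith
  have h0 : 0 < 1 + ‖s‖ := by positivity
  have hk : (1 + ‖s‖) ^ k ≤ Real.exp (k * ell s.im) := by
    rw [Real.exp_nat_mul]
    refine pow_le_pow_left₀ h0.le ?_ k
    rw [ell, Real.exp_log (by positivity)]
    exact hn
  have hA' : A ≤ Real.exp ((A + 1) * ell s.im) := by
    have h4 := four_le_ell s.im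
    have h5 := Real.add_one_le_exp ((A + 1) * ell s.im)
    nlinarith
  refine (mul_le_mul hA' hk (by positivity) (Real.exp_pos _).le).trans (le_of_eq ?_)
  rw [← Real.exp_add]
  ring_nf

theorem norm_heckeL_le_one (h : IsRayChar 𝔪 f) {s : ℂ} (hs : 1 < s.re) :
    ‖heckeL f s‖ ≤ ‖heckeL (1 : Ideal (𝓞 K) →* ℂ) (s.re : ℂ)‖ := by
  have hz := summable_zN (K := K) hs
  have e : heckeL (1 : Ideal (𝓞 K) →* ℂ) (s.re : ℂ) =
      ((∑' I : (Ideal (𝓞 K))⁰, zN s.re I : ℝ) : ℂ) := by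
    rw [heckeL, Complex.ofReal_tsum]
    refine tsum_congr fun I => ?_
    rw [lHom_apply, MonoidHom.one_apply, one_mul]
    show ((absNorm I.1 : ℕ) : ℂ) ^ (-(s.re : ℂ)) = (((absNorm I.1 : ℕ) : ℝ) ^ (-s.re) : ℝ)
    rw [Complex.ofReal_cpow (Nat.cast_nonneg _), Complex.ofReal_natCast, Complex.ofReal_neg]
  rw [e, Complex.norm_real, Real.norm_eq_abs]
  refine le_trans ?_ (le_abs_self _)
  refine (norm_tsum_le_tsum_norm (h.summable_lHom hs)).trans ((h.summable_lHom hs).tsum_le_tsum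
    (fun I => (h.norm_lHom_le s I).trans (le_of_eq (AbelianZeta.norm_normPow s I))) hz)

variable (K) in
/-- `ζ_K σ = O (1 / (σ - 1))`. -/
theorem exists_zeta_le : ∃ M : ℝ, 1 ≤ M ∧ ∀ σ : ℝ, 1 < σ → σ ≤ 4 →
    ‖heckeL (1 : Ideal (𝓞 K) →* ℂ) (σ : ℂ)‖ ≤ M / (σ - 1) := by
  obtain ⟨G, hG, -, hG'⟩ := exists_heckeG (IsRayChar.one (K := K))
  obtain ⟨B, hB⟩ := (isCompact_Icc (a := (1 : ℝ)) (b := 4)).exists_bound_of_continuousOn
    (hG.continuous.comp Complex.continuous_ofReal).continuousOn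
  refine ⟨max B 1, le_max_right _ _, fun σ h1 h2 => ?_⟩
  have hs : 1 < (σ : ℂ).re := by simpa using h1
  have e : heckeL (1 : Ideal (𝓞 K) →* ℂ) (σ : ℂ) = G σ / ((σ : ℂ) - 1) := by
    rw [← hG' _ hs, mul_div_cancel_left₀ _ (PrimeIdeal.sub_one_ne_zero hs)]
  rw [e, norm_div, ← Complex.ofReal_one, ← Complex.ofReal_sub, Complex.norm_real,
    Real.norm_of_nonneg (by linarith)]
  exact div_le_div_of_nonneg_right ((hB σ ⟨h1.le, h2⟩).trans (le_max_left _ _)) (by linarith)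

/-- The lower bound to the right of `1`. -/
theorem heckeL_lower (h : IsRayChar 𝔪 f) {M : ℝ} (hM : 1 ≤ M)
    (hM' : ∀ σ : ℝ, 1 < σ → σ ≤ 4 → ‖heckeL (1 : Ideal (𝓞 K) →* ℂ) (σ : ℂ)‖ ≤ M / (σ - 1))
    {s : ℂ} (h1 : 1 < s.re) (h4 : s.re ≤ 4) : (s.re - 1) / M ≤ ‖heckeL f s‖ := by
  set Z := ‖heckeL (1 : Ideal (𝓞 K) →* ℂ) (s.re : ℂ)‖
  have hp := h.one_le_norm_product h1 s.im
  rw [Complex.re_add_im, norm_mul, norm_mul, norm_pow, norm_pow] at hp
  have h2 : ‖heckeL (f * f) ((s.re : ℂ) + 2 * s.im * Complex.I)‖ ≤ Z := by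
    have := norm_heckeL_le_one (h.mul h) (s := (s.re : ℂ) + 2 * s.im * Complex.I) (by simpa using h1)
    simpa [Z] using this
  have h3 : 1 ≤ (Z * ‖heckeL f s‖) ^ 4 := by
    refine hp.trans ((mul_le_mul_of_nonneg_left h2 (by positivity)).trans (le_of_eq ?_))
    simp only [Z]
    ring
  have h4' : 1 ≤ Z * ‖heckeL f s‖ :=
    le_of_pow_le_pow_left₀ four_ne_zero (by positivity) (by rwa [one_pow])
  have h5 := h4'.trans (mul_le_mul_of_nonneg_right (hM' _ h1 h4) (norm_nonneg _))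
  rw [div_le_iff₀ (by linarith)]
  rw [div_mul_eq_mul_div, le_div_iff₀ (by linarith)] at h5
  linarith

/-- `re (-L'/L)`. -/
def negLD (f : Ideal (𝓞 K) →* ℂ) (s : ℂ) : ℝ := (-deriv (heckeL f) s / heckeL f s).re

theorem neg_logDeriv_eq {e : ℕ} {H : ℂ → ℂ} (hH : Cleared f e H) {s : ℂ} (hs : 1 < s.re) :
    -deriv (heckeL f) s / heckeL f s = -(deriv H s / H s) + (e : ℂ) * (s - 1)⁻¹ := by
  have hs1 := PrimeIdeal.sub_one_ne_zero hs
  have eL : heckeL f =ᶠ[𝓝 s] fun y => H y / (y - 1) ^ e := by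
    filter_upwards [(isOpen_lt continuous_const Complex.continuous_re).mem_nhds hs] with y hy
    rw [hH.series y hy, mul_div_cancel_left₀ _ (pow_ne_zero _ (PrimeIdeal.sub_one_ne_zero hy))]
  have hd : HasDerivAt (fun y => H y / (y - 1) ^ e)
      ((deriv H s * (s - 1) ^ e - H s * ((e : ℂ) * (s - 1) ^ (e - 1) * 1)) / ((s - 1) ^ e) ^ 2) s :=
    (hH.diff s).hasDerivAt.div (((hasDerivAt_id s).sub_const 1).pow e) (pow_ne_zero _ hs1)
  have hne := hH.ne_zero s hs.le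
  rw [eL.deriv_eq, eL.eq_of_nhds, hd.deriv]
  rcases Nat.le_one_iff_eq_zero_or_eq_one.1 hH.le_one with rfl | rfl
  · simp
    ring
  · field_simp
    ring

theorem re_pow_comb {u : ℝ} (hu : 0 ≤ u) {z : ℂ} (hz : ‖z‖ = 1) (k : ℕ) :
    0 ≤ 3 * ((u : ℂ) ^ k).re + 4 * (((u : ℂ) * z) ^ k).re + (((u : ℂ) * z ^ 2) ^ k).re := by
  rw [mul_pow, mul_pow, ← pow_mul, mul_comm 2 k, pow_mul, ← Complex.ofReal_pow,
    Complex.re_ofReal_mul, Complex.re_ofReal_mul, Complex.ofReal_re]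
  have hw : (z ^ k).re ^ 2 + (z ^ k).im ^ 2 = 1 := by
    have := Complex.normSq_eq_norm_sq (z ^ k)
    rw [norm_pow, hz, one_pow, one_pow, Complex.normSq_apply] at this
    linarith
  have e : ((z ^ k) ^ 2).re = 2 * (z ^ k).re ^ 2 - 1 := by
    rw [sq (z ^ k), Complex.mul_re]
    linarith
  rw [e]
  nlinarith [mul_nonneg (pow_nonneg hu k) (sq_nonneg ((z ^ k).re + 1))]

/-- **`3 + 4 cos + cos 2` for the logarithmic derivatives.** -/
theorem three_four_one_negLD (h : IsRayChar 𝔪 f) {σ : ℝ} (hσ : 1 < σ) (t : ℝ) :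
    0 ≤ 3 * negLD (1 : Ideal (𝓞 K) →* ℂ) (σ : ℂ) + 4 * negLD f ((σ : ℂ) + t * Complex.I) +
      negLD (f * f) ((σ : ℂ) + ((2 * t : ℝ) : ℂ) * Complex.I) := by
  have h1 : IsRayChar (⊤ : Ideal (𝓞 K)) (1 : Ideal (𝓞 K) →* ℂ) := IsRayChar.one
  have h₀ : 1 < ((σ : ℂ)).re := by simpa using hσ
  have h₁ : 1 < ((σ : ℂ) + t * Complex.I).re := by simpa using hσ
  have h₂ : 1 < ((σ : ℂ) + ((2 * t : ℝ) : ℂ) * Complex.I).re := by simpa using hσ
  refine ((((Complex.hasSum_re (h1.hasSum_negLogDeriv h₀)).mul_left 3).add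
    ((Complex.hasSum_re (h.hasSum_negLogDeriv h₁)).mul_left 4)).add
    (Complex.hasSum_re ((h.mul h).hasSum_negLogDeriv h₂))).nonneg fun v => ?_
  simp only [Complex.re_ofReal_mul]
  set n := absNorm v.asIdeal
  have hn : 0 < n := zero_lt_two.trans_le (two_le_absNorm v)
  have hn0 : (n : ℂ) ≠ 0 := Nat.cast_ne_zero.mpr hn.ne'
  set u : ℝ := (n : ℝ) ^ (-σ) with hu
  have hu0 : 0 ≤ u := Real.rpow_nonneg (Nat.cast_nonneg n) _
  have e₀ : fPow (1 : Ideal (𝓞 K) →* ℂ) (σ : ℂ) v = (u : ℂ) := by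
    rw [hu, Complex.ofReal_cpow (Nat.cast_nonneg n)]; simp [fPow, primePow, n]
  have hlt : u < 1 := by
    have := norm_primePow_le_half (s := (σ : ℂ)) h₀.le v
    rw [norm_primePow, Complex.ofReal_re, zN_primeIdeal] at this
    linarith
  have hlog : 0 ≤ Real.log n := Real.log_natCast_nonneg n
  have hpos : 0 ≤ ((u : ℂ) / (1 - (u : ℂ))).re := by
    rw [← Complex.ofReal_one, ← Complex.ofReal_sub, ← Complex.ofReal_div, Complex.ofReal_re]
    exact div_nonneg hu0 (by linarith)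
  rw [e₀]
  rcases h.prime_zero_or_one v with hz0 | hz1
  · simp only [fPow, MonoidHom.mul_apply, hz0, zero_mul, zero_div, Complex.zero_re, mul_zero,
      add_zero]
    positivity
  set z : ℂ := f v.asIdeal * (n : ℂ) ^ (-((t : ℂ) * Complex.I)) with hz'
  have hz : ‖z‖ = 1 := by
    rw [hz', norm_mul, hz1, Complex.norm_natCast_cpow_of_pos hn]; simp
  have e₁ : fPow f ((σ : ℂ) + t * Complex.I) v = (u : ℂ) * z := by
    rw [← e₀, fPow, fPow, primePow, primePow, hz', neg_add, Complex.cpow_add _ _ hn0,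
      MonoidHom.one_apply, one_mul]
    ring
  have e₂ : fPow (f * f) ((σ : ℂ) + ((2 * t : ℝ) : ℂ) * Complex.I) v = (u : ℂ) * z ^ 2 := by
    rw [← e₀, fPow, fPow, primePow, primePow, hz', neg_add, Complex.cpow_add _ _ hn0, mul_pow,
      ← Complex.cpow_nat_mul, MonoidHom.mul_apply, MonoidHom.one_apply, one_mul,
      show -(((2 * t : ℝ) : ℂ) * Complex.I) = ((2 : ℕ) : ℂ) * -((t : ℂ) * Complex.I) by
        push_cast; ring]
    ring
  rw [e₁, e₂]
  have hgeo : ∀ {a : ℂ}, ‖a‖ < 1 → HasSum (fun k : ℕ => (a ^ (k + 1)).re) (a / (1 - a)).re :=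
    fun {a} ha => Complex.hasSum_re (by
      simpa [pow_succ', div_eq_mul_inv] using (hasSum_geometric_of_norm_lt_one ha).mul_left a)
  have hnu : ‖(u : ℂ)‖ < 1 := by rwa [Complex.norm_real, Real.norm_of_nonneg hu0]
  have hcomb := ((((hgeo hnu).mul_left 3).add ((hgeo (a := (u : ℂ) * z) (by
    rwa [norm_mul, hz, mul_one])).mul_left 4)).add (hgeo (a := (u : ℂ) * z ^ 2) (by
    rwa [norm_mul, norm_pow, hz, one_pow, mul_one]))).nonneg fun k => re_pow_comb hu0 hz (k + 1)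
  nlinarith [mul_nonneg hlog hcomb]

variable (K) in
theorem exists_real_negLD : ∃ C : ℝ, 0 ≤ C ∧ ∀ σ : ℝ, 1 < σ → σ ≤ 2 →
    negLD (1 : Ideal (𝓞 K) →* ℂ) (σ : ℂ) ≤ 1 / (σ - 1) + C := by
  have hone : IsRayChar (⊤ : Ideal (𝓞 K)) (1 : Ideal (𝓞 K) →* ℂ) := IsRayChar.one
  obtain ⟨G, hG⟩ := exists_cleared hone
  rw [if_neg (show ¬IsNontrivial (1 : Ideal (𝓞 K) →* ℂ) from fun ⟨I, _, _, h1⟩ => h1 rfl)] at hG
  obtain ⟨B, hB⟩ := (isCompact_Icc (a := (1 : ℝ)) (b := 2)).exists_bound_of_continuousOn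
    (f := fun x : ℝ => deriv G (x : ℂ) / G (x : ℂ)) fun x hx =>
      ((((hG.diff.differentiableOn (s := Set.univ)).deriv isOpen_univ).differentiableAt
        Filter.univ_mem).div (hG.diff _)
          (hG.ne_zero _ (by simpa using hx.1))).continuousAt.comp'
            Complex.continuous_ofReal.continuousAt |>.continuousWithinAt
  refine ⟨max B 0, le_max_right _ _, fun σ h1 h2 => ?_⟩
  rw [negLD, neg_logDeriv_eq hG (by simpa using h1), Complex.add_re, Nat.cast_one, one_mul,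
    ← Complex.ofReal_one, ← Complex.ofReal_sub, ← Complex.ofReal_inv, Complex.ofReal_re, one_div,
    add_comm (σ - 1)⁻¹]
  refine add_le_add ?_ le_rfl
  rw [Complex.neg_re]
  exact (neg_le_abs _).trans ((Complex.abs_re_le_norm _).trans
    ((hB σ ⟨h1.le, h2⟩).trans (le_max_left _ _)))

/-- **Landau's lemma at `1 + δ + it`.** -/
theorem exists_landau_negLD (h : IsRayChar 𝔪 f) {e : ℕ} {H : ℂ → ℂ} (hH : Cleared f e H) :
    ∃ C : ℝ, 1 ≤ C ∧ ∀ δ t : ℝ, 0 < δ → δ ≤ stripEta K → 1 ≤ |t| →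
      negLD f (((1 + δ : ℝ) : ℂ) + t * Complex.I) ≤ C * (ell t + Real.log (1 / δ)) ∧
      ∀ β : ℝ, H ((β : ℂ) + t * Complex.I) = 0 → 1 + δ - β ≤ stripEta K / 3 →
        negLD f (((1 + δ : ℝ) : ℂ) + t * Complex.I) ≤
          C * (ell t + Real.log (1 / δ)) - 1 / (1 + δ - β) := by
  obtain ⟨η, hη⟩ : ∃ η, η = stripEta K := ⟨_, rfl⟩
  rw [← hη]
  have hη0 : 0 < η := hη ▸ stripEta_pos K
  have hη2 : η ≤ 1 / 2 := hη ▸ stripEta_le K
  obtain ⟨P, hP, hup⟩ := hH.growth.exists_exp (by linarith [stripEta_le K])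
  rw [← hη] at hup
  obtain ⟨M, hM, hM'⟩ := exists_zeta_le K
  refine ⟨6 * (2 * P + M + 1) / η + 1, le_add_of_nonneg_left (by positivity),
    fun δ t hδ hδη ht => ?_⟩
  obtain ⟨s₀, hs₀⟩ : ∃ s₀ : ℂ, s₀ = ((1 + δ : ℝ) : ℂ) + t * Complex.I := ⟨_, rfl⟩
  rw [← hs₀]
  have hre : s₀.re = 1 + δ := by simp [hs₀]
  have him : s₀.im = t := by simp [hs₀]
  have hs0' : 1 < s₀.re := by rw [hre]; linarith
  obtain ⟨g, hg⟩ : ∃ g : ℂ → ℂ, g = fun z => H (s₀ + z) := ⟨_, rfl⟩
  have hU : DifferentiableOn ℂ g Set.univ :=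
    hg ▸ (hH.diff.comp (differentiable_id.const_add s₀)).differentiableOn
  have hlow : δ / M ≤ ‖g 0‖ := by
    have h1 := heckeL_lower h hM hM' hs0' (by rw [hre]; linarith)
    rw [hre, add_sub_cancel_left] at h1
    rw [hg]
    simp only [add_zero, hH.series s₀ hs0', norm_mul, norm_pow]
    refine h1.trans (le_mul_of_one_le_left (norm_nonneg _) (one_le_pow₀ (ht.trans ?_)))
    simpa [him] using Complex.abs_im_le_norm (s₀ - 1)
  have h0 : g 0 ≠ 0 := norm_pos_iff.1 (lt_of_lt_of_le (by positivity) hlow)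
  obtain ⟨B, hB⟩ : ∃ B, B = Real.exp (P * (5 / 4 * ell t)) * (M / δ) := ⟨_, rfl⟩
  have hb : ∀ z ∈ sphere (0 : ℂ) η, ‖g z‖ ≤ B * ‖g 0‖ := fun z hz => by
    rw [mem_sphere_zero_iff_norm] at hz
    have h1 := abs_le.1 ((Complex.abs_re_le_norm z).trans hz.le)
    rw [hg]
    refine (hup _ (by rw [Complex.add_re, hre]; linarith)
      (by rw [Complex.add_re, hre]; linarith)).trans ?_
    rw [hB]
    calc Real.exp (P * ell (s₀ + z).im)
        ≤ Real.exp (P * (5 / 4 * ell t)) * 1 := by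
          rw [mul_one]
          refine Real.exp_le_exp.2 (mul_le_mul_of_nonneg_left (ell_near ?_) (by linarith))
          rw [Complex.add_im, him, add_sub_cancel_left]
          exact ((Complex.abs_im_le_norm z).trans hz.le).trans (by linarith)
      _ = Real.exp (P * (5 / 4 * ell t)) * (M / δ) * (δ / M) := by field_simp
      _ ≤ _ := mul_le_mul_of_nonneg_left (by simpa [hg] using hlow) (by positivity)
  have hz : ∀ z ∈ closedBall (0 : ℂ) (η / 3), g z = 0 → z.re < 0 := by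
    intro z _ h0
    rw [hg] at h0
    by_contra hc
    exact hH.ne_zero (s₀ + z) (by rw [Complex.add_re, hre]; linarith) h0
  have hpole : negLD f s₀ ≤ -(deriv g 0 / g 0).re + 1 := by
    rw [negLD, neg_logDeriv_eq hH hs0', Complex.add_re, Complex.neg_re, hg, deriv_comp_const_add]
    simp only [add_zero]
    refine add_le_add le_rfl ((Complex.re_le_norm _).trans ?_)
    rw [norm_mul, Complex.norm_natCast, norm_inv]
    refine mul_le_one₀ (by exact_mod_cast hH.le_one) (by positivity) (inv_le_one_of_one_le₀ ?_)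
    exact ht.trans (by simpa [him] using Complex.abs_im_le_norm (s₀ - 1))
  have hl := four_le_ell t
  have hlδ : 0 ≤ Real.log (1 / δ) := Real.log_nonneg (by rw [le_div_iff₀ hδ]; linarith)
  have hlogB : 6 * Real.log B / η + 1 ≤
      (6 * (2 * P + M + 1) / η + 1) * (ell t + Real.log (1 / δ)) := by
    rw [hB, Real.log_mul (Real.exp_pos _).ne' (by positivity), Real.log_exp,
      show M / δ = M * (1 / δ) by ring, Real.log_mul (by linarith) (by positivity),
      show (6 * (2 * P + M + 1) / η + 1) * (ell t + Real.log (1 / δ)) =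
        6 * (2 * P + M + 1) * (ell t + Real.log (1 / δ)) / η + (ell t + Real.log (1 / δ)) by ring]
    refine add_le_add (div_le_div_of_nonneg_right ?_ hη0.le) (by linarith)
    have := Real.log_le_self (show 0 ≤ M by linarith)
    nlinarith [mul_nonneg (show 0 ≤ P by linarith) hlδ, mul_nonneg (show 0 ≤ M by linarith) hlδ]
  refine ⟨?_, fun β hβ hβ1 => ?_⟩
  · have := FA.DLVP.landau isOpen_univ (Set.subset_univ _) hη0 hU h0 hb hz
    linarith
  · have hβ' : β < 1 := by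
      by_contra hc
      exact hH.ne_zero _ (by simpa using not_lt.1 hc) hβ
    obtain ⟨ρ, hρ⟩ : ∃ ρ : ℂ, ρ = ((-(1 + δ - β) : ℝ) : ℂ) := ⟨_, rfl⟩
    have hρm : ρ ∈ closedBall (0 : ℂ) (η / 3) := by
      rw [mem_closedBall_zero_iff, hρ, Complex.norm_real, Real.norm_eq_abs, abs_neg,
        abs_of_pos (by linarith : 0 < 1 + δ - β)]
      exact hβ1
    have hρ0 : g ρ = 0 := by
      simp only [hg, hs₀, hρ]
      rw [← hβ]
      congr 1
      push_cast
      ring
    have := FA.DLVP.landau_zero isOpen_univ (Set.subset_univ _) hη0 hU h0 hb hz hρm hρ0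
    rw [hρ, ← Complex.ofReal_one, ← Complex.ofReal_div, Complex.ofReal_re, div_neg] at this
    linarith

/-- The heart of the argument. -/
theorem exists_high_region (h : IsRayChar 𝔪 f) {e : ℕ} {H : ℂ → ℂ} (hH : Cleared f e H) :
    ∃ c : ℝ, 0 < c ∧ ∀ β t : ℝ, 1 ≤ |t| → H ((β : ℂ) + t * Complex.I) = 0 →
      β < 1 - c / ell t := by
  obtain ⟨H₂, hH₂⟩ := exists_cleared (h.mul h)
  obtain ⟨C₀, hC₀, hreal⟩ := exists_real_negLD K
  obtain ⟨C₁, hC₁, h1⟩ := exists_landau_negLD h hH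
  obtain ⟨C₂, hC₂, h2⟩ := exists_landau_negLD (h.mul h) hH₂
  have hη0 := stripEta_pos K
  have hη2 := stripEta_le K
  obtain ⟨Q, hQ⟩ : ∃ Q, Q = C₀ + 4 * C₁ + C₂ := ⟨_, rfl⟩
  obtain ⟨A, hA⟩ : ∃ A, A = (10 * Q + 40) ^ 2 + 4 / stripEta K := ⟨_, rfl⟩
  have hQ5 : 5 ≤ Q := by rw [hQ]; linarith
  have hA1 : 1 ≤ A := by rw [hA]; nlinarith [show 0 ≤ 4 / stripEta K by positivity]
  have hAη : 4 ≤ A * stripEta K := by
    rw [hA, add_mul, div_mul_cancel₀ _ hη0.ne']
    linarith [show 0 ≤ (10 * Q + 40) ^ 2 * stripEta K by positivity]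
  refine ⟨1 / (8 * A), by positivity, fun β t ht hz => ?_⟩
  obtain ⟨L, hL⟩ : ∃ L, L = ell t := ⟨_, rfl⟩
  rw [← hL]
  have hL4 : 4 ≤ L := hL ▸ four_le_ell t
  obtain ⟨δ, hδ⟩ : ∃ δ, δ = 1 / (A * L) := ⟨_, rfl⟩
  have hδ0 : 0 < δ := by rw [hδ]; positivity
  have hδη : δ ≤ stripEta K / 16 := by
    rw [hδ, div_le_iff₀ (by positivity)]
    nlinarith
  have hc : 1 / (8 * A) / L ≤ δ / 8 := by rw [hδ]; exact le_of_eq (by field_simp)
  rcases lt_or_ge (stripEta K / 3) (1 + δ - β) with h' | h'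
  · linarith
  have hβ : β < 1 := by
    by_contra hb
    exact hH.ne_zero _ (by simpa using not_lt.1 hb) hz
  have hd : 0 < 1 + δ - β := by linarith
  have h341 := three_four_one_negLD h (σ := 1 + δ) (by linarith) t
  have e0 := hreal (1 + δ) (by linarith) (by linarith)
  rw [add_sub_cancel_left] at e0
  have e1 := (h1 δ t hδ0 (by linarith) ht).2 β hz h'
  have e2 := (h2 δ (2 * t) hδ0 (by linarith) (by rw [abs_mul, abs_two]; linarith)).1
  have hδinv : 1 / δ = A * L := by rw [hδ, one_div_one_div]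
  rw [hδinv] at e0 e1 e2
  rw [← hL] at e1
  have e3 : ell (2 * t) ≤ 2 * L := hL ▸ ell_two_mul t
  obtain ⟨ℓ, hℓ⟩ : ∃ ℓ, ℓ = Real.log (A * L) := ⟨_, rfl⟩
  rw [← hℓ] at e1 e2
  have hlA : 0 ≤ Real.log A := Real.log_nonneg hA1
  have hℓle : ℓ ≤ L * (1 + Real.log A) := by
    rw [hℓ, Real.log_mul (by linarith) (by linarith)]
    nlinarith [Real.log_le_self (show 0 ≤ L by linarith), mul_nonneg (show 0 ≤ L - 1 by linarith) hlA]
  have hs : 10 * Q + 40 ≤ √A := Real.le_sqrt_of_sq_le (by rw [hA]; linarith [show 0 ≤ 4 / stripEta K by positivity])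
  have hlogA : Real.log A ≤ 2 * √A := by
    have h5 : Real.log √A ≤ √A := Real.log_le_self (Real.sqrt_nonneg _)
    rw [Real.log_sqrt (by linarith)] at h5
    linarith
  have hmain : 4 / (1 + δ - β) ≤ 7 / 2 * (A * L) := by
    have a1 : C₂ * (ell (2 * t) + ℓ) ≤ C₂ * (L * (3 + Real.log A)) :=
      mul_le_mul_of_nonneg_left (by linarith) (by linarith)
    have a2 : C₁ * (L + ℓ) ≤ C₁ * (L * (3 + Real.log A)) :=
      mul_le_mul_of_nonneg_left (by linarith) (by linarith)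
    have a3 : 3 * C₀ ≤ C₀ * (L * (3 + Real.log A)) := by
      rw [mul_comm 3]
      exact mul_le_mul_of_nonneg_left (by nlinarith) hC₀
    have a4 : Q * (3 + Real.log A) ≤ A / 2 := by
      nlinarith [Real.mul_self_sqrt (show 0 ≤ A by linarith), mul_le_mul_of_nonneg_left hlogA
        (show 0 ≤ Q by linarith), mul_le_mul_of_nonneg_right hs (Real.sqrt_nonneg A)]
    have a5 := mul_le_mul_of_nonneg_left a4 (show 0 ≤ L by linarith)
    rw [hQ] at a5
    have e : 4 / (1 + δ - β) = 4 * (1 / (1 + δ - β)) := by ring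
    linarith
  rw [div_le_iff₀ hd] at hmain
  have hδAL : δ * (A * L) = 1 := by rw [hδ]; field_simp
  nlinarith

/-- **The zero-free region and the logarithmic derivative in it.** -/
theorem exists_regular_region (h : IsRayChar 𝔪 f) {e : ℕ} {H : ℂ → ℂ} (hH : Cleared f e H) :
    ∃ a C : ℝ, 0 < a ∧ a ≤ stripEta K ∧ 0 ≤ C ∧ ∀ s : ℂ, 1 - a / ell s.im ≤ s.re → s.re ≤ 2 →
      H s ≠ 0 ∧ ‖deriv H s / H s‖ ≤ C * ell s.im ^ 3 := by
  obtain ⟨c, hc, hhigh⟩ := exists_high_region h hH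
  have hη0 := stripEta_pos K
  have hη2 := stripEta_le K
  -- the low region
  obtain ⟨θ, hθ, hlow⟩ : ∃ θ : ℝ, 0 < θ ∧ ∀ s : ℂ, |s.im| ≤ 1 → 1 - θ ≤ s.re → H s ≠ 0 := by
    obtain ⟨Z, hZdef⟩ : ∃ Z : Set ℂ, Z = (Set.Icc 0 1 ×ℂ Set.Icc (-1 : ℝ) 1) ∩ H ⁻¹' {0} :=
      ⟨_, rfl⟩
    have hZc : IsCompact Z := hZdef ▸ (IsCompact.reProdIm isCompact_Icc isCompact_Icc).inter_right
      (isClosed_singleton.preimage hH.diff.continuous)
    have hmem : ∀ s : ℂ, |s.im| ≤ 1 → 0 ≤ s.re → H s = 0 → s ∈ Z := fun s h1 h2 h3 => by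
      rw [hZdef]
      refine ⟨Complex.mem_reProdIm.2 ⟨⟨h2, ?_⟩, abs_le.1 h1⟩, h3⟩
      by_contra hc'
      exact hH.ne_zero s (not_le.1 hc').le h3
    rcases Z.eq_empty_or_nonempty with hZ | hZ
    · refine ⟨1, one_pos, fun s h1 h2 h3 => ?_⟩
      have := hmem s h1 (by linarith) h3
      rw [hZ] at this
      exact this
    obtain ⟨z, hz, hmax⟩ := hZc.exists_isMaxOn hZ Complex.continuous_re.continuousOn
    have hz1 : z.re < 1 := by
      rw [hZdef] at hz
      by_contra hc'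
      exact hH.ne_zero z (not_lt.1 hc') hz.2
    refine ⟨min ((1 - z.re) / 2) 1, lt_min (by linarith) one_pos, fun s h1 h2 h3 => ?_⟩
    have := hmax (hmem s h1 (by linarith [min_le_right ((1 - z.re) / 2) 1]) h3)
    have : s.re ≤ z.re := this
    linarith [min_le_left ((1 - z.re) / 2) 1]
  obtain ⟨a, ha⟩ : ∃ a, a = min (min c θ) (stripEta K) := ⟨_, rfl⟩
  have ha0 : 0 < a := ha ▸ lt_min (lt_min hc hθ) hη0
  have haη : a ≤ stripEta K := ha ▸ min_le_right _ _
  have hne : ∀ z : ℂ, 1 - a / ell z.im ≤ z.re → H z ≠ 0 := fun z hz h0 => by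
    rcases le_or_gt |z.im| 1 with ht | ht
    · refine hlow z ht ?_ h0
      have : a / ell z.im ≤ θ := (div_le_self ha0.le (by linarith [four_le_ell z.im])).trans
        (ha ▸ (min_le_left _ _).trans (min_le_right _ _))
      linarith
    · have hb := hhigh z.re z.im ht.le (by rwa [Complex.re_add_im])
      have : a / ell z.im ≤ c / ell z.im :=
        div_le_div_of_nonneg_right (ha ▸ (min_le_left _ _).trans (min_le_left _ _)) (ell_pos _).le
      linarith
  obtain ⟨P, hP, hup⟩ := hH.growth.exists_exp (by linarith)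
  obtain ⟨M, hM, hM'⟩ := exists_zeta_le K
  have hreg : Regular H (stripEta K) a (P + M + 1) := by
    refine ⟨hH.diff, hne, fun z h1 h2 => (hup z h1 h2).trans (Real.exp_le_exp.2
      (mul_le_mul_of_nonneg_right (by linarith) (ell_pos _).le)), fun z h1 h3 => ?_⟩
    have hd : 0 < z.re - 1 := by linarith
    have hL0 : 0 < ‖heckeL f z‖ := norm_pos_iff.2 (h.heckeL_ne_zero h1)
    have hl1 : -Real.log ‖z - 1‖ ≤ 1 / (z.re - 1) := by
      have h5 : z.re - 1 ≤ ‖z - 1‖ := le_trans (by simp) (Complex.re_le_norm (z - 1))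
      have h6 := Real.one_sub_inv_le_log_of_pos hd
      have := Real.log_le_log hd h5
      rw [one_div]
      linarith
    have hl2 : -Real.log ‖heckeL f z‖ ≤ M / (z.re - 1) := by
      have h5 := Real.log_le_log (by positivity) (heckeL_lower h hM hM' h1 (by linarith))
      have h6 := Real.log_le_self (show 0 ≤ M / (z.re - 1) by positivity)
      rw [← inv_div, Real.log_inv] at h5
      linarith
    have hd1 : 0 ≤ 1 / (z.re - 1) := by positivity
    rw [hH.series z h1, norm_mul, norm_pow, Real.log_mul (pow_ne_zero _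
      (norm_ne_zero_iff.2 (PrimeIdeal.sub_one_ne_zero h1))) hL0.ne', Real.log_pow]
    have he : -((e : ℝ) * Real.log ‖z - 1‖) ≤ 1 / (z.re - 1) := by
      rcases Nat.le_one_iff_eq_zero_or_eq_one.1 hH.le_one with rfl | rfl
      · simpa using hd.le
      · simpa using hl1
    refine le_trans ?_ (div_le_div_of_nonneg_right (show (M + 1 : ℝ) ≤ (P + M + 1) * ell z.im by
      nlinarith [four_le_ell z.im]) hd.le)
    rw [add_div]
    linarith
  refine ⟨a / 8, 160 * (24 * (P + M + 1) + 1) / a ^ 2, by positivity, by linarith, by positivity,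
    fun s h1 h2 => ⟨hne s ?_, hreg.norm_logDeriv_le ha0 haη (by linarith) (by linarith) h1 h2⟩⟩
  have : a / 8 / ell s.im ≤ a / ell s.im :=
    div_le_div_of_nonneg_right (by linarith) (ell_pos _).le
  linarith

end FA.ChebError

end
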